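import Fermat.Agent.S36.Inst.Need
import Fermat.Agent.S36.V3.DegA
import Fermat.Agent.S36.V3.DegB

set_option autoImplicit false
set_option linter.unusedSectionVars false

/-!
# S36 / Inst / Conc : `TorChart` and `Reg2` for the concrete three-level context

Setting of `Inst/Need.lean`.  One statement for both charts: `t₀ = T1.x` or `t₀ = T1.x⁻¹`.

* `conc_hM8`  : strong M8 at level `q M`;
* `conc_chartData` : the data of one chart;
* `conc_tor`  : `Tor.TorChart`;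
* `conc_reg`  : `LG.Reg2` at all closed points.
-/

noncomputable section

namespace Fermat.Agent.S36.Inst

open ModularCurve Polynomial IntermediateField AlgebraicCurve Fermat.Agent.S18 Fermat.Agent.S18.V
open Fermat.Agent.S24 (Kb FN)
open Fermat.Agent.S34 Fermat.Agent.S34.V2 Fermat.Agent.S36.V3 Fermat.Agent.S36.C0 Fermat.Agent.S36.LG
open Fermat.Agent.S36.Descent (IsInertiaField)
open Fermat.Agent.S36.Norm Fermat.Agent.S36.Tor

section Abs

variable {R K : Type} [CommRing R] [IsDomain R] [IsDiscreteValuationRing R] [Field K] [CharZero K]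
  [Algebra R K] [IsFractionRing R K] {R' K' : Type} [CommRing R'] [IsDomain R'] [IsLocalRing R']
  [Field K'] [Algebra R' K'] [IsFractionRing R' K'] {q : ℕ} [NeZero q] {E F1 F : Type}
  [Field E] [Field F1] [Field F] [Algebra K E] [Algebra K F1] [Algebra K F] [Algebra E F1]
  [Algebra F1 F] [Algebra E F] [IsScalarTower K E F1] [IsScalarTower K F1 F] [IsScalarTower E F1 F]
  [IsScalarTower K E F] {T1 : Two R K q E F1} (T : Three R' K' F T1)

variable {t₀ : E} (ht : t₀ = T1.x ∨ t₀ = T1.x⁻¹) (h1 : Chart1 K (q : R) T1.x T1.VE)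
  (h1' : Chart1 K (q : R) T1.x⁻¹ T1.VE)

include T ht h1 in
/-- the chart at level `q M` lies in both branches. -/
theorem abs_CInt_le {y : F1} (hy : y ∈ CInt R K (algebraMap E F1 t₀)) : y ∈ T1.Vi ∧ y ∈ T1.V0 := by
  have hB : Branches (K := K) (q : R) T1.xF T1.Vi T1.V0 := T1.branches T.hunr h1.fin h1.inO_iff
  have ht' : algebraMap E F1 t₀ = T1.xF ∨ algebraMap E F1 t₀ = T1.xF⁻¹ := by
    rcases ht with rfl | rfl
    · exact Or.inl rfl
    · exact Or.inr (map_inv₀ _ _)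
  exact hB.mem_of_mem_CInt T.hunr ht' hy

include ht h1 h1' in
theorem abs_degα :
    DegMap R q (algebraMap E F1 t₀) (algebraMap E F t₀) T.αK (normAlong (T.αK : F1 →+* F)) T1.Vi
      T1.V0 T.Voo T.Vmid T.V0 :=
  T.degMap_α T.αK (fun _ => rfl) t₀ (fun _ hy => (abs_CInt_le T ht h1 hy).2)
    (fun _ hc => (T.side_oo_t ht h1).nt T.hunr (Three.chart_t ht h1 h1') hc)
    (fun _ hc => (T.side_mid_t ht h1).nt T.hunr (Three.chart_t ht h1 h1') hc)

include ht h1 h1' in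
theorem abs_degβ (hM8 : T1.i2 t₀ ∈ CInt R K (algebraMap E F1 t₀)) :
    DegMap R q (algebraMap E F1 t₀) (algebraMap E F t₀) T.β (normAlong (T.β : F1 →+* F)) T1.V0
      T1.Vi T.V0 T.Vmid T.Voo :=
  T.degMap_β t₀ hM8 (fun _ hy => (abs_CInt_le T ht h1 hy).1)
    (fun _ hy => (Three.chart_t ht h1 h1').C_le T.hunr hy)
    (fun _ hc => (T.side_0_t ht h1 hM8).nt T.hunr (Three.chart_t ht h1 h1') hc)
    (fun _ hc => (T.side_mid_t ht h1).nt T.hunr (Three.chart_t ht h1 h1') hc)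

end Abs

variable {M q : ℕ} [NeZero M] [NeZero q] {A : ValuationSubring Kb} {K : Type} [Field K] [CharZero K]
  {ι : K →+* Kb} [IsDiscreteValuationRing ↥(A.comap ι)] {E : Type} [Field E] [Algebra K E]
  [Algebra E ↥(FK K (M * q))] [IsScalarTower K E ↥(FK K (M * q))]
  [Algebra ↥(FK K (M * q)) ↥(FK K (M * q * q))]
  [IsScalarTower K ↥(FK K (M * q)) ↥(FK K (M * q * q))]
  [Algebra E ↥(FK K (M * q * q))] [IsScalarTower E ↥(FK K (M * q)) ↥(FK K (M * q * q))]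
  [IsScalarTower K E ↥(FK K (M * q * q))]
  {T1 : Two ↥(A.comap ι) K q E ↥(FK K (M * q))} {T : Three ↥A Kb ↥(FK K (M * q * q)) T1} {ζ : Kbˣ}

variable (hq : q.Prime) (hqM : ¬ q ∣ M) (hr : Core.auxR q ∣ M) (hA : A.LiesOverPrime q)
  (hι : IsInertiaField A ι) (hT1 : IsConc M q T1) (hζ : IsPrimitiveRoot ζ q) (hT : IsConc3 ι ζ T)
  (h1 : Chart1 K (q : ↥(A.comap ι)) T1.x T1.VE) (h1' : Chart1 K (q : ↥(A.comap ι)) T1.x⁻¹ T1.VE)
  {t₀ : E} (ht : t₀ = T1.x ∨ t₀ = T1.x⁻¹)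

include hq hqM hr hA hι hT1 hζ hT h1 h1' ht

/-- **the data of one chart**, concretely. -/
theorem conc_chartData : ∃ (J Jq Jqq g₁ g₂ G1 G2 : ↥(FK K (M * q * q))),
    ChartData (q : ↥(A.comap ι)) q t₀ T1.VE (algebraMap E ↥(FK K (M * q * q)) t₀) T.Vf T.ι₀ T.ι₂
      J Jq Jqq g₁ g₂ G1 G2 ∧ TriCong (K := K) (q : ↥(A.comap ι)) q T.Vf G1 G2 := by
  obtain ⟨jj, hj⟩ := hT1.exists_j
  have hM8 := conc_hM8 T.hunr hT1 h1 h1' ht
  have hJD := conc_jData hqM T.hunr hT1 hj ht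
  have hj0 : jj ≠ 0 := (hT1.jdHyp hqM hj (s := RingEquiv.refl E) rfl).j_ne
  obtain ⟨G1, G2, htab, hc⟩ := need_gdata hq hqM hr hζ hT (need_coe_J hT1 hT hj)
  exact ⟨_, _, _, _, _, G1, G2, T.chartData ht h1 h1' hM8 hj0 hJD htab
    (fun n hn hJ honly => mid_ord hqM hr hA hι hT1 hζ hT h1 h1' hj ht hM8 n hn hJ honly)
    (fun n hn hJ honly => mid_cusp hqM hr hA hι hT1 hζ hT h1 h1' hj ht hM8 n hn hJ honly), hc⟩

/-- **LOCGEN**, concretely. -/
theorem conc_reg (n : Ideal (CInt ↥(A.comap ι) K (algebraMap E ↥(FK K (M * q * q)) t₀)))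
    (hn : IsClosedPt (q : ↥(A.comap ι)) n) : Reg2 n := by
  obtain ⟨J, Jq, Jqq, g₁, g₂, G1, G2, D, -⟩ :=
    conc_chartData hq hqM hr hA hι hT1 hζ hT h1 h1' ht
  exact D.reg2 T.hunr hn

/-- **the hypotheses of `Tor.toric`**, concretely. -/
theorem conc_tor : TorChart (q : ↥(A.comap ι)) q T.Vf 0 1 2 (algebraMap E ↥(FK K (M * q)) t₀)
    (algebraMap E ↥(FK K (M * q * q)) t₀) T.αK T.β
    (normAlong (T.αK : ↥(FK K (M * q)) →+* ↥(FK K (M * q * q))))
    (normAlong (T.β : ↥(FK K (M * q)) →+* ↥(FK K (M * q * q)))) T1.Vi T1.V0 := by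
  obtain ⟨J, Jq, Jqq, g₁, g₂, G1, G2, D, hc⟩ :=
    conc_chartData hq hqM hr hA hι hT1 hζ hT h1 h1' ht
  have hM8 := conc_hM8 T.hunr hT1 h1 h1' ht
  refine T.torChart D hc ?_ (abs_degα T ht h1 h1') (abs_degβ T ht h1 h1' hM8)
  intro P hP hdeg
  obtain ⟨z, hz⟩ := hι.exists_root_mod hq hA P hP hdeg
  refine ⟨z, ?_⟩
  rw [T.hunr.maximalIdeal_eq, Ideal.mem_span_singleton] at hz
  exact hz

end Fermat.Agent.S36.Inst
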