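import Fermat.Agent.S36.Inst.Maps

set_option autoImplicit false
set_option linter.unusedSectionVars false

/-!
# S36 / Inst / M8 : integrality relations between `t`, `t(Q^q)`, `t(Q^{q²})`   (task I-M8)

`t₀ : E` arbitrary (in the applications `T1.x` or `T1.x⁻¹`), hypothesis `hM8 : T1.i2 t₀ ∈ CInt R K (algebraMap E F1 t₀)` (level `qM`).

SKETCHES.  `S34.inst_algHom_CInt φ (ht : φ t ∈ CInt R K t') (hz : z ∈ CInt R K t) : φ z ∈ CInt R K t'`, `self_mem_CInt`.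
* `cInt_trans`: `inst_algHom_CInt (AlgHom.id K F)`.
* `t_mem_i2`: apply `T1.w` (as `F1 →ₐ[K] F1`) to `hM8`: `w₁ (i2 t₀) = a t₀` (`T1.w_w`), `w₁ (a t₀) = i2 t₀`.
* `i1_mem`: `β (a t₀) = α (i2 t₀)` (`T.β_a`), apply `T.αK` to `hM8` (`α (a t₀) = algebraMap E F t₀`).
* `ι₂_mem_i1`: `ι₂ t₀ = β (i2 t₀)` (`T.ι₂_eq`), apply `T.β` to `hM8`.   `ι₂_mem := cInt_trans i1_mem ι₂_mem_i1`.
* `t_mem_i1`: apply `T.αK` to `t_mem_i2`.   `i1_mem_ι₂`: apply `T.β` to `t_mem_i2`.   `t_mem_ι₂`: transitivity.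
-/

noncomputable section

namespace Fermat.Agent.S36.V3

open ModularCurve Polynomial IntermediateField Fermat.Agent.S18 Fermat.Agent.S18.V Fermat.Agent.S34.V2
open Fermat.Agent.S34 Fermat.Agent.S36.LG Fermat.Agent.S36.Inst

namespace Three

variable {R K : Type} [CommRing R] [IsDomain R] [IsDiscreteValuationRing R] [Field K] [CharZero K]
  [Algebra R K] [IsFractionRing R K] {R' K' : Type} [CommRing R'] [IsDomain R'] [IsLocalRing R']
  [Field K'] [Algebra R' K'] [IsFractionRing R' K'] {q : ℕ} [NeZero q] {E F1 F : Type}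
  [Field E] [Field F1] [Field F] [Algebra K E] [Algebra K F1] [Algebra K F] [Algebra E F1]
  [Algebra F1 F] [Algebra E F] [IsScalarTower K E F1] [IsScalarTower K F1 F] [IsScalarTower E F1 F]
  [IsScalarTower K E F] {T1 : Two R K q E F1} (T : Three R' K' F T1)

omit T in
theorem cInt_trans {a b z : F} (hab : a ∈ CInt R K b) (hz : z ∈ CInt R K a) : z ∈ CInt R K b :=
  inst_algHom_CInt (AlgHom.id K F) hab hz

variable {t₀ : E} (hM8 : T1.i2 t₀ ∈ CInt R K (algebraMap E F1 t₀))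
include hM8

omit T in
theorem t_mem_i2 : algebraMap E F1 t₀ ∈ CInt R K (T1.i2 t₀) := by
  have h := inst_algHom_CInt (R := R) (T1.w : F1 →ₐ[K] F1) (t := algebraMap E F1 t₀)
    (t' := T1.i2 t₀) (by
      have : (T1.w : F1 →ₐ[K] F1) (algebraMap E F1 t₀) = T1.i2 t₀ := rfl
      rw [this]; exact self_mem_CInt _) hM8
  have e : (T1.w : F1 →ₐ[K] F1) (T1.i2 t₀) = algebraMap E F1 t₀ := T1.w_w _
  rwa [e] at h

theorem i1_mem : T.β (algebraMap E F1 t₀) ∈ CInt R K (algebraMap E F t₀) := by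
  rw [T.β_a]
  exact inst_algHom_CInt (R := R) T.αK (t := algebraMap E F1 t₀) (by
    rw [T.αK_apply, ← IsScalarTower.algebraMap_apply E F1 F]; exact self_mem_CInt _) hM8

theorem ι₂_mem_i1 : T.ι₂ t₀ ∈ CInt R K (T.β (algebraMap E F1 t₀)) := by
  rw [T.ι₂_eq]
  exact inst_algHom_CInt (R := R) T.β (t := algebraMap E F1 t₀) (self_mem_CInt _) hM8

theorem ι₂_mem : T.ι₂ t₀ ∈ CInt R K (algebraMap E F t₀) :=
  cInt_trans (T.i1_mem hM8) (T.ι₂_mem_i1 hM8)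

theorem t_mem_i1 : algebraMap E F t₀ ∈ CInt R K (T.β (algebraMap E F1 t₀)) := by
  rw [T.β_a, IsScalarTower.algebraMap_apply E F1 F]
  exact inst_algHom_CInt (R := R) T.αK (t := T1.i2 t₀) (self_mem_CInt _) (t_mem_i2 hM8)

theorem i1_mem_ι₂ : T.β (algebraMap E F1 t₀) ∈ CInt R K (T.ι₂ t₀) := by
  rw [T.ι₂_eq]
  exact inst_algHom_CInt (R := R) T.β (t := T1.i2 t₀) (self_mem_CInt _) (t_mem_i2 hM8)

theorem t_mem_ι₂ : algebraMap E F t₀ ∈ CInt R K (T.ι₂ t₀) :=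
  cInt_trans (T.i1_mem_ι₂ hM8) (T.t_mem_i1 hM8)

end Three

end Fermat.Agent.S36.V3
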