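import Fermat.Agent.S36.LG.UFD
import Fermat.Agent.S36.LG.Sat
import Fermat.Agent.S34.SS.NT
import Fermat.Agent.S34.SS.DedC

set_option autoImplicit false
set_option linter.unusedSectionVars false

/-!
# S36 / Inst / Side0 : a branch of the upper level seen from level `M`;  `PrinC ⟹ Reg2`

`E` = function field of level `M` (prime to the residue characteristic), chart parameter `t₀`, unique Gauss extension `V₁`
(`Chart1 K ϖ t₀ V₁`, `S34/SS/Defs.lean`).  `F` = function field of the upper level, chart parameter `t`, `V` a branch,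
`ι : E →ₐ[K] F` an embedding through which `V` has residue degree one over `V₁`.

`Side0` = the fields of `S34.Side` which are used by normality transfer (no Frobenius field, no second embedding).

* `Side0.nt`   : `C = ι C₁ + (C ∩ 𝔪_V)`;
* `smAt_of_chart1` : every prime `n₁ ∋ ϖ` of `C₁` is `SmAt`;
* `Side0.reg2` : `PrinC n V G`, `V` centred at `n`  ⟹  `Reg2 n`.
-/

noncomputable section

namespace Fermat.Agent.S36.Inst

open Polynomial IntermediateField Fermat.Agent.S18 Fermat.Agent.S34 Fermat.Agent.S36.LG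

variable {R K E F : Type} [CommRing R] [IsDomain R] [IsDiscreteValuationRing R] [Field K] [CharZero K]
  [Algebra R K] [IsFractionRing R K] [Field E] [Algebra K E] [Field F] [Algebra K F] {ϖ : R}

/-- a branch `V` of the upper level, of residue degree one over level `M` through `ι`. -/
structure Side0 (R : Type) {K E F : Type} [CommRing R] [Field K] [Algebra R K] [Field E] [Algebra K E]
    [Field F] [Algebra K F] (t₀ : E) (V₁ : ValuationSubring E) (t : F) (V : ValuationSubring F)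
    (ι : E →ₐ[K] F) : Prop where
  comap : ∀ y : E, ι y ∈ V ↔ y ∈ V₁
  C_le : ∀ y ∈ CInt R K t, y ∈ V
  mapC : ∀ y ∈ CInt R K t₀, ι y ∈ CInt R K t
  res : ∀ z ∈ V, ∃ y ∈ V₁, z - ι y ∈ V.nonunits
  tpar : ∃ y ∈ CInt R K t₀, t - ι y ∈ V.nonunits

variable {t₀ : E} {V₁ : ValuationSubring E} {t : F} {V : ValuationSubring F} {ι : E →ₐ[K] F}

theorem Side0.comap_nonunits (hs : Side0 R t₀ V₁ t V ι) (y : E) :
    ι y ∈ V.nonunits ↔ y ∈ V₁.nonunits := by
  rw [ss_mem_nonunits_iff, ss_mem_nonunits_iff, ← map_inv₀, hs.comap, map_eq_zero]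

/-- **normality transfer** (proof = `S34.Side.exists_sub_mem`). -/
theorem Side0.nt (hϖ : Irreducible ϖ) (h1 : Chart1 K ϖ t₀ V₁) (hs : Side0 R t₀ V₁ t V ι) {c : F}
    (hc : c ∈ CInt R K t) : ∃ y ∈ CInt R K t₀, c - ι y ∈ V.nonunits := by
  have hcV : c ∈ V := hs.C_le c hc
  obtain ⟨P, hPm, hP⟩ := hc
  obtain ⟨ε, hε, hcε⟩ := hs.res c hcV
  obtain ⟨τ, hτ, htτ⟩ := hs.tpar
  have hR : ∀ r : R, rE R K F r ∈ V := fun r => hs.C_le _ (rE_mem_CInt t r)
  have htV : t ∈ V := hs.C_le _ (by simpa [evR_X] using evR_mem_CInt (R := R) (K := K) t X)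
  have hτV : ι τ ∈ V := (hs.comap τ).2 (h1.C_le hϖ hτ)
  have hεV : ι ε ∈ V := (hs.comap ε).2 hε
  have hkey := nt_eval₂_sub V hR htV hτV htτ hcV hεV hcε P
  rw [hP, zero_sub] at hkey
  have hcomp : (ι : E →+* F).comp (evR R K τ) = evR R K (ι τ) :=
    RingHom.ext fun s => ss_algHom_evR ι τ s
  have h2 : ι ((P.map (evR R K τ)).eval ε) = P.eval₂ (evR R K (ι τ)) (ι ε) := by
    rw [eval_map, ← hcomp]
    exact hom_eval₂ P (evR R K τ) (ι : E →+* F) ε
  have h3 : (P.map (evR R K τ)).eval ε ∈ V₁.nonunits := by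
    rw [← hs.comap_nonunits, h2, ValuationSubring.mem_nonunits_iff]
    rw [ValuationSubring.mem_nonunits_iff, Valuation.map_neg] at hkey
    exact hkey
  obtain ⟨y, hy, hy'⟩ := h1.exists_of_monic hϖ hε (P.map (evR R K τ)) (hPm.map _)
    (fun i => by rw [coeff_map]; exact nt_evR_mem_CInt hτ _) h3
  refine ⟨y, hy, ?_⟩
  have e : c - ι y = (c - ι ε) + ι (ε - y) := by rw [map_sub]; ring
  rw [e]
  exact add_mem_nonunits V hcε ((hs.comap_nonunits _).2 hy')

/-- every prime `n₁ ∋ ϖ` of the level-`M` chart is smooth-like. -/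
theorem smAt_of_chart1 (hϖ : Irreducible ϖ) (h1 : Chart1 K ϖ t₀ V₁) (n₁ : Ideal (CInt R K t₀))
    [n₁.IsPrime] (hn : unifC t₀ ϖ ∈ n₁) : SmAt ϖ n₁ := by
  obtain ⟨X₁, hX, hgen⟩ := h1.exists_locGen hϖ n₁ hn
  refine ⟨X₁, InMax.of_mem hX, fun z hz => ?_⟩
  obtain ⟨d, hd, w, hw, e⟩ := hz
  obtain ⟨d', hd', a, b, e'⟩ := hgen w hw
  have hd0 : (d : E) ≠ 0 := ss_coe_ne_zero hd
  have hd0' : (d' : E) ≠ 0 := ss_coe_ne_zero hd'
  have e'' : (d' : E) * (w : E) = (X₁ : E) * a + rE R K E ϖ * b := by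
    have := congrArg (fun y : CInt R K t₀ => (y : E)) e'
    simpa [unifC] using this
  refine ⟨(d : E)⁻¹ * (d' : E)⁻¹ * b, (d : E)⁻¹ * (d' : E)⁻¹ * a,
    ((InLoc.inv_of_notMem hd).mul (InLoc.inv_of_notMem hd')).mul (InLoc.of_mem n₁ b.2),
    ((InLoc.inv_of_notMem hd).mul (InLoc.inv_of_notMem hd')).mul (InLoc.of_mem n₁ a.2), ?_⟩
  have : z = (d : E)⁻¹ * (d' : E)⁻¹ * ((d' : E) * ((d : E) * z)) := by
    field_simp
  rw [this, e, e'']
  ring

/-- the ring homomorphism `C₁ → C` induced by `ι`. -/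
def Side0.homC (hs : Side0 R t₀ V₁ t V ι) : CInt R K t₀ →+* CInt R K t :=
  ((ι : E →+* F).comp (CInt R K t₀).subtype).codRestrict (CInt R K t) fun y => hs.mapC y y.2

theorem Side0.coe_homC (hs : Side0 R t₀ V₁ t V ι) (y : CInt R K t₀) : ((hs.homC y : CInt R K t) : F) = ι y :=
  rfl

/-- **(K1)** for a `Side0`. -/
theorem Side0.reg2 (hϖ : Irreducible ϖ) (h1 : Chart1 K ϖ t₀ V₁) (hs : Side0 R t₀ V₁ t V ι)
    (hϖV : rE R K F ϖ ∈ V.nonunits) {n : Ideal (CInt R K t)} [n.IsPrime] (hn : unifC t ϖ ∈ n)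
    (hc : Centered V n) {G : F} (hG : PrinC n V G) : Reg2 n := by
  have hp : (n.comap hs.homC).IsPrime := Ideal.comap_isPrime _ _
  have hmem : unifC t₀ ϖ ∈ n.comap hs.homC := by
    rw [Ideal.mem_comap]
    have : hs.homC (unifC t₀ ϖ) = unifC t ϖ := Subtype.ext (by
      rw [hs.coe_homC]; exact ss_algHom_rE ι ϖ)
    rw [this]; exact hn
  exact reg2_of_prinC (ι : E →+* F) hs.mapC (ss_algHom_rE ι ϖ) hs.C_le hc hϖV
    (fun c hc => hs.nt hϖ h1 hc) (n₁ := n.comap hs.homC) (fun y => Iff.rfl)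
    (smAt_of_chart1 hϖ h1 _ hmem) hG

end Fermat.Agent.S36.Inst
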