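import Fermat.Agent.S36.Inst.FromThree

set_option autoImplicit false
set_option linter.unusedSectionVars false

/-!
# S36 / Inst / SideFin : the three `Side0` in the chart `x`   (task I-SideFin)

SKETCH: see the header of `S36/Inst/FromThree.lean`.
-/

noncomputable section

namespace Fermat.Agent.S36.V3

open ModularCurve Polynomial IntermediateField Fermat.Agent.S18 Fermat.Agent.S18.V Fermat.Agent.S34.V2
open Fermat.Agent.S34 Fermat.Agent.S36.LG Fermat.Agent.S36.Inst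

namespace Three

variable {R K : Type} [CommRing R] [IsDomain R] [IsDiscreteValuationRing R] [Field K] [CharZero K]
  [Algebra R K] [IsFractionRing R K] {R' K' : Type} [CommRing R'] [IsDomain R'] [IsLocalRing R']
  [Field K'] [Algebra R' K'] [IsFractionRing R' K'] {q : ℕ} [NeZero q] {E F1 F : Type}
  [Field E] [Field F1] [Field F] [Algebra K E] [Algebra K F1] [Algebra K F] [Algebra E F1]
  [Algebra F1 F] [Algebra E F] [IsScalarTower K E F1] [IsScalarTower K F1 F] [IsScalarTower E F1 F]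
  [IsScalarTower K E F] {T1 : Two R K q E F1} (T : Three R' K' F T1)

/-! ### I-SideFin -/

theorem sf_ι₀_x : T.ι₀ T1.x = T.xF := by
  rw [T.ι₀_apply, T.xF_eq]

theorem sf_ι₂_x : T.ι₂ T1.x = T.xqq := by
  rw [T.ι₂_apply, ← T.xF_eq]; rfl

theorem side_oo_fin (h1 : Chart1 K (q : R) T1.x T1.VE) :
    Side0 R T1.x T1.VE T.xF T.Voo T.ι₀ where
  comap _ := T.map_mem_Voo
  C_le _ hy := T.CInt_le_Voo hy
  mapC _ hy := inst_algHom_CInt T.ι₀ (by rw [T.sf_ι₀_x]; exact self_mem_CInt _) hy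
  res _ hz := T.res_deg_one_oo hz
  tpar := ⟨T1.x, self_mem_CInt _, by rw [T.sf_ι₀_x, sub_self]; exact zero_mem_nonunits _⟩

theorem side_mid_fin (h1 : Chart1 K (q : R) T1.x T1.VE) :
    Side0 R T1.x T1.VE T.xF T.Vmid T.ι₀ where
  comap _ := T.map_mem_Vmid
  C_le _ hy := T.CInt_le_Vmid hy
  mapC _ hy := inst_algHom_CInt T.ι₀ (by rw [T.sf_ι₀_x]; exact self_mem_CInt _) hy
  res _ hz := T.res_deg_one_mid hz
  tpar := ⟨T1.x, self_mem_CInt _, by rw [T.sf_ι₀_x, sub_self]; exact zero_mem_nonunits _⟩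

/-- `x(Q^{q²}) ≡ x^{q²}` on `Voo`. -/
theorem xqq_sub_pow : T.xqq - T.xF ^ (q * q) ∈ T.Voo.nonunits := by
  have e1 : T1.jF T1.xq = qExpand K q (T1.jE T1.x) := T1.w_E T1.x
  have e2 : T1.jF T1.xF = T1.jE T1.x := T1.compat T1.x
  have h1 : T1.xq - T1.xF ^ q ∈ T1.Vi.nonunits := by
    rw [T1.mem_Vi_nonunits, map_sub, map_pow, e1, e2]
    exact T1.hfrob
  have h2 : T.β (T1.xq - T1.xF ^ q) ∈ T.Voo.nonunits := by
    rw [← T.comap_β_oo, DVR.mem_nonunits_comap] at h1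
    exact h1
  rw [map_sub, map_pow, ← T.xqq_eq] at h2
  have hβ : T.β T1.xF ∈ T.Voo := by
    have h : T1.xF ∈ T.Voo.comap (T.β : F1 →+* F) := by
      rw [T.comap_β_oo]; exact T1.xF_mem_Vi
    exact h
  have h3 : T.β T1.xF - T.xF ^ q ∈ T.Voo.nonunits := by
    have := neg_mem_nonunits _ T.tn_xF_pow_sub
    rwa [neg_sub] at this
  have h4 := ss_pow_sub_pow_mem T.Voo hβ (pow_mem T.xF_mem_Voo q) h3 q
  have e : T.xqq - T.xF ^ (q * q) =
      (T.xqq - T.β T1.xF ^ q) + (T.β T1.xF ^ q - (T.xF ^ q) ^ q) := by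
    rw [pow_mul]; ring
  rw [e]
  exact add_mem_nonunits _ h2 h4

theorem side_0_fin (h1 : Chart1 K (q : R) T1.x T1.VE) (hxqq : T.xqq ∈ CInt R K T.xF) :
    Side0 R T1.x T1.VE T.xF T.V0 T.ι₂ where
  comap y := by rw [T.ι₂_apply, T.w_mem_V0]; exact T.map_mem_Voo
  C_le _ hy := T.CInt_le_V0 hy
  mapC _ hy := inst_algHom_CInt T.ι₂ (by rw [T.sf_ι₂_x]; exact hxqq) hy
  res _ hz := T.res_deg_one_0 hz
  tpar := by
    refine ⟨T1.x ^ (q * q), pow_mem (self_mem_CInt _) _, ?_⟩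
    rw [map_pow, T.sf_ι₂_x, T.mem_V0_nonunits, map_sub, map_pow]
    have e : T.w T.xqq = T.xF := T.w_w _
    rw [e]
    exact T.xqq_sub_pow

end Three

end Fermat.Agent.S36.V3
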