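import Fermat.Agent.S36.Inst.SideFin

set_option autoImplicit false
set_option linter.unusedSectionVars false

/-!
# S36 / Inst / SideInf : the three `Side0` in the chart `x⁻¹`   (task I-SideInf)

SKETCH: see the header of `S36/Inst/FromThree.lean`.
-/

noncomputable section

namespace Fermat.Agent.S36.V3

open ModularCurve Polynomial IntermediateField Fermat.Agent.S18 Fermat.Agent.S18.V Fermat.Agent.S34.V2
open Fermat.Agent.S34 Fermat.Agent.S36.LG Fermat.Agent.S36.Inst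

namespace Three

variable {R K : Type} [CommRing R] [IsDomain R] [IsDiscreteValuationRing R] [Field K] [CharZero K]
  [Algebra R K] [IsFractionRing R K] {R' K' : Type} [CommRing R'] [IsDomain R'] [IsLocalRing R']
  [Field K'] [Algebra R' K'] [IsFractionRing R' K'] {q : ℕ} [NeZero q] {E F1 F : Type}
  [Field E] [Field F1] [Field F] [Algebra K E] [Algebra K F1] [Algebra K F] [Algebra E F1]
  [Algebra F1 F] [Algebra E F] [IsScalarTower K E F1] [IsScalarTower K F1 F] [IsScalarTower E F1 F]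
  [IsScalarTower K E F] {T1 : Two R K q E F1} (T : Three R' K' F T1)

/-! ### I-SideInf -/

theorem si_ι₀_x : T.ι₀ T1.x⁻¹ = T.xF⁻¹ := by
  rw [map_inv₀, T.sf_ι₀_x]

theorem si_ι₂_x : T.ι₂ T1.x⁻¹ = T.xqq⁻¹ := by
  rw [map_inv₀, T.sf_ι₂_x]

theorem si_xF_ne_zero : T.xF ≠ 0 := by
  intro h
  exact T.trans_xF (h ▸ isAlgebraic_zero)

theorem side_oo_inf (h1 : Chart1 K (q : R) T1.x T1.VE) :
    Side0 R T1.x⁻¹ T1.VE T.xF⁻¹ T.Voo T.ι₀ where
  comap _ := T.map_mem_Voo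
  C_le _ hy := (T.vertFam_inv h1).mem_of_mem_CInt T.hunr hy 0
  mapC _ hy := inst_algHom_CInt T.ι₀ (by rw [T.si_ι₀_x]; exact self_mem_CInt _) hy
  res _ hz := T.res_deg_one_oo hz
  tpar := ⟨T1.x⁻¹, self_mem_CInt _, by rw [T.si_ι₀_x, sub_self]; exact zero_mem_nonunits _⟩

theorem side_mid_inf (h1 : Chart1 K (q : R) T1.x T1.VE) :
    Side0 R T1.x⁻¹ T1.VE T.xF⁻¹ T.Vmid T.ι₀ where
  comap _ := T.map_mem_Vmid
  C_le _ hy := (T.vertFam_inv h1).mem_of_mem_CInt T.hunr hy 1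
  mapC _ hy := inst_algHom_CInt T.ι₀ (by rw [T.si_ι₀_x]; exact self_mem_CInt _) hy
  res _ hz := T.res_deg_one_mid hz
  tpar := ⟨T1.x⁻¹, self_mem_CInt _, by rw [T.si_ι₀_x, sub_self]; exact zero_mem_nonunits _⟩

theorem side_0_inf (h1 : Chart1 K (q : R) T1.x T1.VE) (hxqq : T.xqq⁻¹ ∈ CInt R K T.xF⁻¹) :
    Side0 R T1.x⁻¹ T1.VE T.xF⁻¹ T.V0 T.ι₂ where
  comap y := by rw [T.ι₂_apply, T.w_mem_V0]; exact T.map_mem_Voo
  C_le _ hy := (T.vertFam_inv h1).mem_of_mem_CInt T.hunr hy 2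
  mapC _ hy := inst_algHom_CInt T.ι₂ (by rw [T.si_ι₂_x]; exact hxqq) hy
  res _ hz := T.res_deg_one_0 hz
  tpar := by
    refine ⟨T1.x⁻¹ ^ (q * q), pow_mem (self_mem_CInt _) _, ?_⟩
    have hoo : T.xF⁻¹ ∈ T.Voo :=
      (T.vertFam_inv h1).mem_of_mem_CInt T.hunr (self_mem_CInt _) 0
    have h0 : T.xF⁻¹ ∈ T.V0 :=
      (T.vertFam_inv h1).mem_of_mem_CInt T.hunr (self_mem_CInt _) 2
    have hqq : T.xqq⁻¹ ∈ T.Voo := by
      rw [T.mem_V0, map_inv₀] at h0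
      exact h0
    have hx0 : T.xF ≠ 0 := T.si_xF_ne_zero
    have hxq0 : T.xqq ≠ 0 := (map_ne_zero T.w).2 hx0
    rw [map_pow, T.si_ι₂_x, T.mem_V0_nonunits, map_sub, map_pow, map_inv₀, map_inv₀]
    have e : T.w T.xqq = T.xF := T.w_w _
    have e' : T.w T.xF = T.xqq := rfl
    rw [e, e']
    have e2 : T.xqq⁻¹ - T.xF⁻¹ ^ (q * q) =
        (T.xqq⁻¹ * T.xF⁻¹ ^ (q * q)) * (-(T.xqq - T.xF ^ (q * q))) := by
      rw [inv_pow]
      have := pow_ne_zero (q * q) hx0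
      field_simp
      ring
    rw [e2]
    exact mul_mem_nonunits _ (mul_mem hqq (pow_mem hoo _)) (neg_mem_nonunits _ T.xqq_sub_pow)

end Three

end Fermat.Agent.S36.V3
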