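import Fermat.Agent.S36.Inst.Maps

set_option autoImplicit false
set_option linter.unusedSectionVars false

/-!
# S36 / Inst / Sep : `CuspSep` at level `q²M` from `S34.JData` at level `qM`   (task I-Sep)

`hJ : JData ϖ q t₁ T1.Vi T1.V0 J₁ D D' g Jq₁ c₀` with `J₁ = a jj`, `Jq₁ = i2 jj` (output of `S34.jData_of_two`).
`g₁ = α g`, `g₂ = β g`, `J = α J₁`, `Jq = α Jq₁ = β J₁` (`T.β_a`), `Jqq = β Jq₁`.

Every field is the image of a field of `JData` under `α` or `β`:
* nonunits: `S18.DVR.mem_nonunits_comap` + `T.comap_α_oo`, `comap_α_mid`, `comap_α_0`, `comap_β_oo`, `comap_β_mid`, `comap_β_0` (e.g. `z ∈ T1.Vi.nonunits → α z ∈ T.Voo.nonunits`);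
* `g₁_int`, `g₂_int`: `S34.inst_algHom_CInt` (`T.αK`, `T.β`), `S34.ss_algHom_rE`, `map_inv₀`;
* `g₁_mul`, `g₂_mul`: `map_mul`, `map_pow`.
-/

noncomputable section

namespace Fermat.Agent.S36.V3

open ModularCurve Polynomial IntermediateField Fermat.Agent.S18 Fermat.Agent.S18.V Fermat.Agent.S34.V2
open Fermat.Agent.S34 Fermat.Agent.S36.LG Fermat.Agent.S36.Inst

namespace Three

variable {R K : Type} [CommRing R] [IsDomain R] [IsDiscreteValuationRing R] [Field K] [CharZero K]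
  [Algebra R K] [IsFractionRing R K] {R' K' : Type} [CommRing R'] [IsDomain R'] [IsLocalRing R']
  [Field K'] [Algebra R' K'] [IsFractionRing R' K'] {q : ℕ} [NeZero q] {E F1 F : Type}
  [Field E] [Field F1] [Field F] [Algebra K E] [Algebra K F1] [Algebra K F] [Algebra E F1]
  [Algebra F1 F] [Algebra E F] [IsScalarTower K E F1] [IsScalarTower K F1 F] [IsScalarTower E F1 F]
  [IsScalarTower K E F] {T1 : Two R K q E F1} (T : Three R' K' F T1)

theorem sep_α_mem {W : ValuationSubring F} {W1 : ValuationSubring F1}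
    (h : W.comap (algebraMap F1 F) = W1) {z : F1} (hz : z ∈ W1) : algebraMap F1 F z ∈ W := by
  rw [← h] at hz; exact hz

theorem sep_α_non {W : ValuationSubring F} {W1 : ValuationSubring F1}
    (h : W.comap (algebraMap F1 F) = W1) {z : F1} (hz : z ∈ W1.nonunits) :
    algebraMap F1 F z ∈ W.nonunits := by
  rw [← h, DVR.mem_nonunits_comap] at hz; exact hz

theorem sep_β_mem {W : ValuationSubring F} {W1 : ValuationSubring F1}
    (h : W.comap (T.β : F1 →+* F) = W1) {z : F1} (hz : z ∈ W1) : T.β z ∈ W := by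
  rw [← h] at hz; exact hz

theorem sep_β_non {W : ValuationSubring F} {W1 : ValuationSubring F1}
    (h : W.comap (T.β : F1 →+* F) = W1) {z : F1} (hz : z ∈ W1.nonunits) :
    T.β z ∈ W.nonunits := by
  rw [← h, DVR.mem_nonunits_comap] at hz; exact hz

theorem cuspSep_of_jData {ϖ : R} {t₁ : F1} {jj : E} (hj : jj ≠ 0) {D D' g : F1} {c₀ : R}
    (hJ : JData (K := K) ϖ q t₁ T1.Vi T1.V0 (algebraMap E F1 jj) D D' g (T1.i2 jj) c₀) :
    CuspSep (K := K) ϖ q T.Vf (algebraMap E F jj) (T.β (algebraMap E F1 jj)) (T.ι₂ jj)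
      (algebraMap F1 F g) (T.β g) where
  J_ne := (_root_.map_ne_zero _).2 hj
  Jq_ne := (_root_.map_ne_zero _).2 ((_root_.map_ne_zero _).2 hj)
  Jqq_ne := (_root_.map_ne_zero _).2 hj
  g₁_mul := by
    rw [T.β_a, ← hJ.g_mul, IsScalarTower.algebraMap_apply E F1 F, map_mul, map_pow]
  g₂_mul := by
    rw [T.ι₂_eq, ← hJ.g_mul, map_mul, map_pow]
  g₁_int := by
    obtain ⟨k, hk⟩ := hJ.g_int
    refine ⟨k, ?_⟩
    have h := inst_algHom_CInt (R := R) T.αK (t := (algebraMap E F1 jj)⁻¹)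
      (t' := (algebraMap E F jj)⁻¹) (by
        rw [map_inv₀, T.αK_apply, ← IsScalarTower.algebraMap_apply E F1 F]
        exact self_mem_CInt _) hk
    rwa [map_mul, map_pow, ss_algHom_rE] at h
  g₂_int := by
    obtain ⟨k, hk⟩ := hJ.g_int
    refine ⟨k, ?_⟩
    have h := inst_algHom_CInt (R := R) T.β (t := (algebraMap E F1 jj)⁻¹)
      (t' := (T.β (algebraMap E F1 jj))⁻¹) (by
        rw [map_inv₀]
        exact self_mem_CInt _) hk
    rwa [map_mul, map_pow, ss_algHom_rE] at h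
  g₁_oo := by
    have h := sep_α_non T.comap_α_oo hJ.g_i
    rwa [map_sub, map_one] at h
  g₁_mid := by
    have h := sep_α_non T.comap_α_mid hJ.g_i
    rwa [map_sub, map_one] at h
  g₁_0 := by
    obtain ⟨k, hk, h⟩ := hJ.g_0
    refine ⟨k, hk, ?_⟩
    have h := sep_α_non T.comap_α_0 h
    rwa [map_sub, map_pow, map_inv₀, ← T.β_a] at h
  g₁_mem_0 := sep_α_mem T.comap_α_0 hJ.g_mem_0
  g₂_oo := by
    have h := T.sep_β_non T.comap_β_oo hJ.g_i
    rwa [map_sub, map_one] at h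
  g₂_mid := by
    obtain ⟨k, hk, h⟩ := hJ.g_0
    refine ⟨k, hk, ?_⟩
    have h := T.sep_β_non T.comap_β_mid h
    rwa [map_sub, map_pow, map_inv₀, ← T.ι₂_eq] at h
  g₂_mem_mid := T.sep_β_mem T.comap_β_mid hJ.g_mem_0
  g₂_mem_0 := T.sep_β_mem T.comap_β_0 hJ.g_mem_0

end Three

end Fermat.Agent.S36.V3
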