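import Fermat.Agent.S36.Inst.LocGen

set_option autoImplicit false
set_option linter.unusedSectionVars false

/-!
# S36 / Inst / Tri : a closed point lies on ALL three components or on at most ONE   (field `tri` of `Tor.TorChart`)

Three branches `V 0 = V_∞`, `V 1 = V_mid`, `V 2 = V_0`.  Put `a = ϖ G2`, `b = G1⁻¹`, `c = G1 / G2` (so `ϖ = a b c`).
By the valuation table (`GTable`) `a` (resp. `c`, `b`) is a nonunit of `V 0` (resp. `V 1`, `V 2`) and a unit of the two other branches; all three are units of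
`O_n[1/ϖ]` at a non-cuspidal `n`.  Hence `V 0` is centred at `n` iff `a ∈ 𝔪_n`, `V 1` iff `c ∈ 𝔪_n`, `V 2` iff `b ∈ 𝔪_n`.
Two congruences (`TriCong`; on `q`-expansions: `Θ(Q^q) ≡ Θ(Q)^q mod q`, `Θ(ζ Q) ≡ Θ(Q) mod (1 - ζ)`):
 * `c ≡ b^(q-1)` on `V 0`;
 * `a ≡ ε b` on `V 1`, `ε = χ(q) = ± 1`.
So `0 & 2 ⟹ b ∈ 𝔪_n ⟹ c ∈ 𝔪_n ⟹ 1`;  `0 & 1 ⟹ c ∈ 𝔪_n ⟹ b ∈ 𝔪_n ⟹ 2`;  `1 & 2 ⟹ b ∈ 𝔪_n ⟹ a ∈ 𝔪_n ⟹ 0`.
At the cuspidal points: `CuspSep.unique`.
-/

noncomputable section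

namespace Fermat.Agent.S36.Inst

open Polynomial IntermediateField Fermat.Agent.S18 Fermat.Agent.S34 Fermat.Agent.S36.LG

variable {R K F : Type} [CommRing R] [IsDomain R] [IsDiscreteValuationRing R] [Field K] [CharZero K]
  [Algebra R K] [IsFractionRing R K] [Field F] [Algebra K F] {ϖ : R}

/-- the two congruences between `a = ϖ G2`, `b = G1⁻¹`, `c = G1 / G2`. -/
structure TriCong (ϖ : R) (q : ℕ) (V : Fin 3 → ValuationSubring F) (G1 G2 : F) : Prop where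
  oo : G1 * G2⁻¹ - G1⁻¹ ^ (q - 1) ∈ (V 0).nonunits
  mid : ∃ ε : F, (ε = 1 ∨ ε = -1) ∧ rE R K F ϖ * G2 - ε * G1⁻¹ ∈ (V 1).nonunits

variable {t : F} {V : Fin 3 → ValuationSubring F} {J G1 G2 : F}

theorem tri_genUnit_mul {n : Ideal (CInt R K t)} [n.IsPrime] {y z : F} (hy : GenUnit ϖ n y)
    (hz : GenUnit ϖ n z) : GenUnit ϖ n (y * z) := by
  obtain ⟨hy0, k, h1, h2⟩ := hy
  obtain ⟨hz0, k', h1', h2'⟩ := hz
  refine ⟨mul_ne_zero hy0 hz0, k + k', ?_, ?_⟩
  · have e : rE R K F ϖ ^ (k + k') * (y * z) = (rE R K F ϖ ^ k * y) * (rE R K F ϖ ^ k' * z) := by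
      rw [pow_add]; ring
    rw [e]; exact h1.mul h1'
  · have e : rE R K F ϖ ^ (k + k') * (y * z)⁻¹ =
        (rE R K F ϖ ^ k * y⁻¹) * (rE R K F ϖ ^ k' * z⁻¹) := by
      rw [pow_add, mul_inv]; ring
    rw [e]; exact h2.mul h2'

/-- a `GenUnit` which is a nonunit of `V k₀` and a unit of the other branches: `V k₀` is centred at `n` iff it lies in `𝔪_n`. -/
theorem tri_centered_iff (hϖ : Irreducible ϖ) (hV : VertFam (K := K) ϖ t V)
    {n : Ideal (CInt R K t)} [n.IsPrime] {g : F} (hg : GenUnit ϖ n g) (k₀ : Fin 3)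
    (hg1 : g ∈ (V k₀).nonunits) (hg3 : ∀ k, k ≠ k₀ → g ∈ V k ∧ g⁻¹ ∈ V k) :
    InLoc n g ∧ (Centered (V k₀) n ↔ InMax n g) := by
  have hin : InLoc n g := by
    obtain ⟨-, j, h1, -⟩ := hg
    refine hV.sat_loc hϖ j h1 fun k _ => ?_
    by_cases hk : k = k₀
    · subst hk; exact mem_of_mem_nonunits _ hg1
    · exact (hg3 k hk).1
  refine ⟨hin, fun hc => Centered.inMax (fun y hy => hV.mem_of_mem_CInt hϖ hy k₀) hc hin hg1,
    fun hm => ?_⟩
  by_contra hc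
  refine not_locUnit_of_inMax n hm (hV.locUnit_of_genUnit hϖ hg fun k hk => ?_)
  by_cases hk0 : k = k₀
  · subst hk0; exact absurd hk hc
  · exact hg3 k hk0

theorem tri_inMax_of_pow {n : Ideal (CInt R K t)} [n.IsPrime] {z : F} (hz : InLoc n z) {r : ℕ}
    (h : InMax n (z ^ r)) : InMax n z := by
  by_contra hcon
  obtain ⟨h0, h1, h2⟩ := LocUnit.of_not_inMax hz hcon
  refine not_locUnit_of_inMax n h ⟨pow_ne_zero _ h0, h1.pow r, ?_⟩
  rw [← inv_pow]
  exact h2.pow r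

/-- the non-cuspidal points. -/
theorem GTable.tri (hϖ : Irreducible ϖ) (hV : VertFam (K := K) ϖ t V)
    (h : GTable (K := K) ϖ V J G1 G2) {q : ℕ} (hq : 2 ≤ q) (hc : TriCong (K := K) ϖ q V G1 G2)
    {n : Ideal (CInt R K t)} [n.IsPrime] (hJ : InLoc n J) :
    (∀ j, Centered (V j) n) ∨ ∃ j₀, ∀ j, Centered (V j) n → j = j₀ := by
  have hϖ0 := rE_unif_ne_zero (K := K) (F := F) hϖ
  have hG1 := h.G1_ne
  have hG2 := h.G2_ne
  have gG1 : GenUnit ϖ n G1 := gtable_genUnit hJ h.G1_ne h.G1_int h.G1_int'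
  have gG2 : GenUnit ϖ n G2 := gtable_genUnit hJ h.G2_ne h.G2_int h.G2_int'
  -- `a`
  obtain ⟨ha, hA⟩ := tri_centered_iff hϖ hV (gtable_genUnit_unif_mul hϖ gG2) 0
    (mul_mem_nonunits' _ (hV.mem 0) h.G2_oo.1) (by
      intro k hk
      fin_cases k
      · exact absurd rfl hk
      · exact h.G2_mid
      · exact h.G2_0)
  -- `b`
  obtain ⟨hb, hB⟩ := tri_centered_iff hϖ hV (gtable_genUnit_inv gG1) 2
    (by
      have e : G1⁻¹ = rE R K F ϖ * (rE R K F ϖ * G1)⁻¹ := by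
        rw [mul_inv]; field_simp
      rw [e]
      exact mul_mem_nonunits' _ (hV.mem 2) h.G1_0.2) (by
      intro k hk
      fin_cases k
      · exact ⟨h.G1_oo.2, by rw [inv_inv]; exact h.G1_oo.1⟩
      · exact ⟨h.G1_mid.2, by rw [inv_inv]; exact h.G1_mid.1⟩
      · exact absurd rfl hk)
  -- `c`
  obtain ⟨hcl, hC⟩ := tri_centered_iff hϖ hV (tri_genUnit_mul gG1 (gtable_genUnit_inv gG2)) 1
    (by
      have e : G1 * G2⁻¹ = rE R K F ϖ * (G1 * (rE R K F ϖ * G2)⁻¹) := by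
        rw [mul_inv]; field_simp
      rw [e]
      exact mul_mem_nonunits' _ (hV.mem 1) (mul_mem h.G1_mid.1 h.G2_mid.2)) (by
      intro k hk
      fin_cases k
      · refine ⟨mul_mem h.G1_oo.1 h.G2_oo.2, ?_⟩
        rw [mul_inv, inv_inv]
        exact mul_mem h.G1_oo.2 h.G2_oo.1
      · exact absurd rfl hk
      · have e : G1 * G2⁻¹ = (rE R K F ϖ * G1) * (rE R K F ϖ * G2)⁻¹ := by
          rw [mul_inv]; field_simp
        have e' : (G1 * G2⁻¹)⁻¹ = (rE R K F ϖ * G1)⁻¹ * (rE R K F ϖ * G2) := by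
          rw [mul_inv, mul_inv, inv_inv]; field_simp
        exact ⟨e ▸ mul_mem h.G1_0.1 h.G2_0.2, e' ▸ mul_mem h.G1_0.2 h.G2_0.1⟩)
  have hCV : ∀ k, ∀ y ∈ CInt R K t, y ∈ V k := fun k y hy => hV.mem_of_mem_CInt hϖ hy k
  -- the congruence on `V 0`
  have key0 : Centered (V 0) n → (InMax n (G1 * G2⁻¹) ↔ InMax n G1⁻¹) := by
    intro h0
    have hm : InMax n (G1 * G2⁻¹ - G1⁻¹ ^ (q - 1)) :=
      Centered.inMax (hCV 0) h0 (hcl.sub (hb.pow _)) hc.oo
    constructor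
    · intro h1
      apply tri_inMax_of_pow hb (r := q - 1)
      have e : G1⁻¹ ^ (q - 1) = G1 * G2⁻¹ - (G1 * G2⁻¹ - G1⁻¹ ^ (q - 1)) := by ring
      rw [e]
      exact h1.sub hm
    · intro h1
      have e : G1 * G2⁻¹ = (G1 * G2⁻¹ - G1⁻¹ ^ (q - 1)) + G1⁻¹ ^ (q - 1) := by ring
      rw [e]
      exact hm.add (cuspSep_inMax_pow h1 (by omega))
  -- the congruence on `V 1`
  have key1 : Centered (V 1) n → InMax n G1⁻¹ → InMax n (rE R K F ϖ * G2) := by
    intro h1 h2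
    obtain ⟨ε, hε, hcong⟩ := hc.mid
    have hεl : InLoc n ε := by
      rcases hε with rfl | rfl
      · exact InLoc.of_mem n (one_mem _)
      · exact (InLoc.of_mem n (one_mem _)).neg
    have hm : InMax n (rE R K F ϖ * G2 - ε * G1⁻¹) :=
      Centered.inMax (hCV 1) h1 (ha.sub (hεl.mul hb)) hcong
    have e : rE R K F ϖ * G2 = (rE R K F ϖ * G2 - ε * G1⁻¹) + ε * G1⁻¹ := by ring
    rw [e]
    exact hm.add (InMax.mul_left hεl h2)
  by_cases h0 : Centered (V 0) n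
  · by_cases h1 : Centered (V 1) n
    · left
      have h2 : Centered (V 2) n := hB.2 ((key0 h0).1 (hC.1 h1))
      intro j
      fin_cases j
      · exact h0
      · exact h1
      · exact h2
    · by_cases h2 : Centered (V 2) n
      · exact absurd (hC.2 ((key0 h0).2 (hB.1 h2))) h1
      · right
        refine ⟨0, fun j hj => ?_⟩
        fin_cases j
        · rfl
        · exact absurd hj h1
        · exact absurd hj h2
  · by_cases h1 : Centered (V 1) n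
    · by_cases h2 : Centered (V 2) n
      · exact absurd (hA.2 (key1 h1 (hB.1 h2))) h0
      · right
        refine ⟨1, fun j hj => ?_⟩
        fin_cases j
        · exact absurd hj h0
        · rfl
        · exact absurd hj h2
    · right
      refine ⟨2, fun j hj => ?_⟩
      fin_cases j
      · exact absurd hj h0
      · exact absurd hj h1
      · rfl

variable {E : Type} [Field E] [Algebra K E] {q : ℕ} {t₀ : E} {VE : ValuationSubring E}
  {ι₀ ι₂ : E →ₐ[K] F} {Jq Jqq g₁ g₂ : F}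

/-- **TRI**: the field `tri` of `Tor.TorChart`. -/
theorem ChartData.tri (hϖ : Irreducible ϖ)
    (D : ChartData ϖ q t₀ VE t V ι₀ ι₂ J Jq Jqq g₁ g₂ G1 G2) (hc : TriCong (K := K) ϖ q V G1 G2)
    (n : Ideal (CInt R K t)) (hn : IsClosedPt ϖ n) :
    (∀ j, Centered (V j) n) ∨ ∃ j₀, ∀ j, Centered (V j) n → j = j₀ := by
  have hp := hn.max.isPrime
  rcases cusp_or (n := n) D.J_eq with hJ | hJ
  · exact D.tab.tri hϖ D.vert D.hq hc hJ
  · obtain ⟨k₀, hk₀⟩ := D.vert.exists_centered hϖ hn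
    exact Or.inr ⟨k₀, fun k hk =>
      D.sep.unique hϖ (by have := D.hq; omega) D.vert hn hJ hk hk₀⟩

end Fermat.Agent.S36.Inst
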