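import Fermat.Agent.S36.Inst.SideInf
import Fermat.Agent.S36.Inst.M8
import Fermat.Agent.S36.Inst.Sep
import Fermat.Agent.S36.Inst.Tri
import Fermat.Agent.S36.Inst.Rep
import Fermat.Agent.S36.Tor.Loc
import Fermat.Agent.S36.Tor.Rat

set_option autoImplicit false
set_option linter.unusedSectionVars false

/-!
# S36 / Inst / Abs : abstract assembly: `ChartData` and `Tor.TorChart` from `T : V3.Three`

`t₀ = T1.x` or `T1.x⁻¹`; `t' = algebraMap E F1 t₀`, `t = algebraMap E F t₀`.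
-/

noncomputable section

namespace Fermat.Agent.S36.V3

open ModularCurve Polynomial IntermediateField Fermat.Agent.S18 Fermat.Agent.S18.V Fermat.Agent.S34.V2
open Fermat.Agent.S34 Fermat.Agent.S36.LG Fermat.Agent.S36.Inst Fermat.Agent.S36.Tor

namespace Three

variable {R K : Type} [CommRing R] [IsDomain R] [IsDiscreteValuationRing R] [Field K] [CharZero K]
  [Algebra R K] [IsFractionRing R K] {R' K' : Type} [CommRing R'] [IsDomain R'] [IsLocalRing R']
  [Field K'] [Algebra R' K'] [IsFractionRing R' K'] {q : ℕ} [NeZero q] {E F1 F : Type}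
  [Field E] [Field F1] [Field F] [Algebra K E] [Algebra K F1] [Algebra K F] [Algebra E F1]
  [Algebra F1 F] [Algebra E F] [IsScalarTower K E F1] [IsScalarTower K F1 F] [IsScalarTower E F1 F]
  [IsScalarTower K E F] {T1 : Two R K q E F1} (T : Three R' K' F T1)

variable {t₀ : E} (ht : t₀ = T1.x ∨ t₀ = T1.x⁻¹) (h1 : Chart1 K (q : R) T1.x T1.VE)
  (h1' : Chart1 K (q : R) T1.x⁻¹ T1.VE)

include ht h1 in
theorem vertFam_t : VertFam (K := K) (q : R) (algebraMap E F t₀) T.Vf := by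
  rcases ht with rfl | rfl
  · rw [← T.xF_eq]; exact T.vertFam h1
  · rw [map_inv₀, ← T.xF_eq]; exact T.vertFam_inv h1

omit [Algebra F1 F] [Algebra E F] [IsScalarTower K F1 F] [IsScalarTower E F1 F]
  [IsScalarTower K E F] [Algebra K F] [Field F] in
include ht h1 h1' in
theorem chart_t : Chart1 K (q : R) t₀ T1.VE := by
  rcases ht with rfl | rfl
  · exact h1
  · exact h1'

include ht h1 in
theorem side_oo_t : Side0 R t₀ T1.VE (algebraMap E F t₀) T.Voo T.ι₀ := by
  rcases ht with rfl | rfl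
  · rw [← T.xF_eq]; exact T.side_oo_fin h1
  · rw [map_inv₀, ← T.xF_eq]; exact T.side_oo_inf h1

include ht h1 in
theorem side_mid_t : Side0 R t₀ T1.VE (algebraMap E F t₀) T.Vmid T.ι₀ := by
  rcases ht with rfl | rfl
  · rw [← T.xF_eq]; exact T.side_mid_fin h1
  · rw [map_inv₀, ← T.xF_eq]; exact T.side_mid_inf h1

include ht h1 in
theorem side_0_t (hM8 : T1.i2 t₀ ∈ CInt R K (algebraMap E F1 t₀)) :
    Side0 R t₀ T1.VE (algebraMap E F t₀) T.V0 T.ι₂ := by
  have h := T.ι₂_mem hM8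
  rcases ht with rfl | rfl
  · rw [← T.xF_eq] at h ⊢
    exact T.side_0_fin h1 (by rwa [T.ι₂_apply, ← T.xF_eq] at h)
  · rw [map_inv₀, ← T.xF_eq] at h ⊢
    refine T.side_0_inf h1 ?_
    rwa [T.ι₂_apply, map_inv₀, map_inv₀, ← T.xF_eq] at h

include ht h1 h1' in
/-- **the data of one chart**. -/
theorem chartData (hM8 : T1.i2 t₀ ∈ CInt R K (algebraMap E F1 t₀)) {jj : E} (hj : jj ≠ 0)
    {D D' g : F1} {c₀ : R}
    (hJ : JData (K := K) (q : R) q (algebraMap E F1 t₀) T1.Vi T1.V0 (algebraMap E F1 jj) D D' g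
      (T1.i2 jj) c₀) {G1 G2 : F}
    (htab : GTable (K := K) (q : R) T.Vf (algebraMap E F jj) G1 G2)
    (hord : ∀ n : Ideal (CInt R K (algebraMap E F t₀)), IsClosedPt (q : R) n →
      InLoc n (algebraMap E F jj) → (∀ k, Centered (T.Vf k) n → k = 1) → MidGen (q : R) q T.Vf n)
    (hcusp : ∀ n : Ideal (CInt R K (algebraMap E F t₀)), IsClosedPt (q : R) n →
      InMax n (algebraMap E F jj)⁻¹ → (∀ k, Centered (T.Vf k) n → k = 1) →
        MidGen (q : R) q T.Vf n) :
    ChartData (q : R) q t₀ T1.VE (algebraMap E F t₀) T.Vf T.ι₀ T.ι₂ (algebraMap E F jj)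
      (T.β (algebraMap E F1 jj)) (T.ι₂ jj) (algebraMap F1 F g) (T.β g) G1 G2 where
  hq := T1.hq.two_le
  chart := chart_t ht h1 h1'
  vert := T.vertFam_t ht h1
  side_oo := T.side_oo_t ht h1
  side_mid := T.side_mid_t ht h1
  side_0 := T.side_0_t ht h1 hM8
  unif_oo := T.unif_oo'
  unif_0 := T.unif_0'
  ram_mid := T.ram_mid
  J_eq := by
    obtain ⟨B, r, hr, hB, e⟩ := hJ.J_eq
    refine ⟨B, r, hr, hB, ?_⟩
    have := congrArg T.αK e
    rw [map_mul, map_pow, ss_algHom_evR, T.αK_apply, T.αK_apply,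
      ← IsScalarTower.algebraMap_apply, ← IsScalarTower.algebraMap_apply] at this
    exact this
  sep := T.cuspSep_of_jData hj hJ
  tab := htab
  mid_ord := hord
  mid_cusp := hcusp

/-- **the hypotheses of `Tor.toric` in one pair of charts**. -/
theorem torChart {J Jq Jqq g₁ g₂ G1 G2 : F}
    (D : ChartData (q : R) q t₀ T1.VE (algebraMap E F t₀) T.Vf T.ι₀ T.ι₂ J Jq Jqq g₁ g₂ G1 G2)
    (hc : TriCong (K := K) (q : R) q T.Vf G1 G2)
    (hk : ∀ P : R[X], P.Monic → P.natDegree ≠ 0 → ∃ z : R, (q : R) ∣ P.eval z)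
    {Nα Nβ : F →* F1}
    (hα : DegMap R q (algebraMap E F1 t₀) (algebraMap E F t₀) T.αK Nα T1.Vi T1.V0 T.Voo T.Vmid T.V0)
    (hβ : DegMap R q (algebraMap E F1 t₀) (algebraMap E F t₀) T.β Nβ T1.V0 T1.Vi T.V0 T.Vmid T.Voo) :
    TorChart (q : R) q T.Vf 0 1 2 (algebraMap E F1 t₀) (algebraMap E F t₀) T.αK T.β Nα Nβ T1.Vi
      T1.V0 where
  vert := D.vert
  rat := fun n hn => isRat_of_algClosed T.hunr hk hn
  rep := by
    intro n hn j hj
    have := hn.max.isPrime
    fin_cases j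
    · exact repAt_of_side0 T.hunr D.chart D.side_oo hj
    · exact repAt_of_side0 T.hunr D.chart D.side_mid hj
    · exact repAt_of_side0 T.hunr D.chart D.side_0 hj
  tri := D.tri T.hunr hc
  degα := hα
  degβ := hβ

end Three

end Fermat.Agent.S36.V3
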