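import Fermat.Agent.S36.Inst.Abs
import Fermat.Agent.S36.Inst.JD0
import Fermat.Agent.S36.C0.ThreeB
import Fermat.Agent.S36.Core.Defs
import Fermat.Agent.S34.Inst.Conc

set_option autoImplicit false
set_option linter.unusedSectionVars false

/-!
# S36 / Inst / ConcJ : strong M8 and `JData` at level `q M` for the concrete two-level context
-/

noncomputable section

namespace Fermat.Agent.S36.Inst

open ModularCurve Polynomial IntermediateField AlgebraicCurve Fermat.Agent.S18 Fermat.Agent.S18.V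
open Fermat.Agent.S24 (Kb FN)
open Fermat.Agent.S34 Fermat.Agent.S34.V2 Fermat.Agent.S36.V3 Fermat.Agent.S36.C0 Fermat.Agent.S36.LG

variable {M q : ℕ} [NeZero M] [NeZero q] {A : ValuationSubring Kb} {K : Type} [Field K] [CharZero K]
  {ι : K →+* Kb} [IsDiscreteValuationRing ↥(A.comap ι)] {E : Type} [Field E] [Algebra K E]
  [Algebra E ↥(FK K (M * q))] [IsScalarTower K E ↥(FK K (M * q))]
  {T1 : Two ↥(A.comap ι) K q E ↥(FK K (M * q))}

theorem conc_hrel (hT1 : IsConc M q T1) {jj : E} (hj : T1.jE jj = jqModC K) {t₀ : E}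
    (ht : t₀ = T1.x ∨ t₀ = T1.x⁻¹) :
    ∃ (B : (↥(A.comap ι))[X]) (r : ℕ), 1 ≤ r ∧ IsUnit (B.coeff 0) ∧
      jj * t₀ ^ r = evR ↥(A.comap ι) K t₀ B := by
  rcases ht with rfl | rfl
  · exact hT1.rel_fin hj
  · exact hT1.rel_inf hj

/-- strong M8 at level `q M`, both charts. -/
theorem conc_hM8 (hunr : Irreducible (q : ↥(A.comap ι))) (hT1 : IsConc M q T1)
    (h1 : Chart1 K (q : ↥(A.comap ι)) T1.x T1.VE) (h1' : Chart1 K (q : ↥(A.comap ι)) T1.x⁻¹ T1.VE)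
    {t₀ : E} (ht : t₀ = T1.x ∨ t₀ = T1.x⁻¹) :
    T1.i2 t₀ ∈ CInt ↥(A.comap ι) K (algebraMap E ↥(FK K (M * q)) t₀) := by
  have hB : Branches (K := K) (q : ↥(A.comap ι)) T1.xF T1.Vi T1.V0 :=
    T1.branches hunr h1.fin h1.inO_iff
  rcases ht with rfl | rfl
  · exact V2.Branches.mem_CInt hunr hB hT1.m8_fin T1.xq_mem_Vi T1.xq_mem_V0
  · have hxinv : T1.x⁻¹ ∈ T1.VE := h1'.C_le hunr (self_mem_CInt _)
    have e1 : algebraMap E ↥(FK K (M * q)) T1.x⁻¹ = T1.xF⁻¹ := map_inv₀ _ _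
    have e2 : T1.i2 T1.x⁻¹ = T1.xq⁻¹ := map_inv₀ _ _
    rw [e1, e2]
    refine V2.Branches.mem_CInt_inv hunr hB hT1.m8_inf ?_ ?_
    · rw [← e2]; exact T1.i2_mem_Vi.2 hxinv
    · rw [← e2]; exact T1.i2_mem_V0.2 hxinv

/-- `j(Q^q) ≡ j(Q)^q` on the branch `∞`. -/
theorem conc_hfi (hT1 : IsConc M q T1) {jj : E} (hj : T1.jE jj = jqModC K) :
    T1.i2 jj - algebraMap E ↥(FK K (M * q)) jj ^ q ∈ T1.Vi.nonunits := by
  rw [T1.mem_Vi_nonunits, map_sub, map_pow, hT1.jF_eq, hT1.jF_eq, hT1.coe_i2, hT1.coe_map, hj]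
  have h := V2.frob_congr_int (R := ↥(A.comap ι)) (K := K) q T1.hq T1.hqR (jqModC ℤ)
  rwa [coeffMap_jqModC] at h

theorem conc_jData (hqM : ¬ q ∣ M) (hunr : Irreducible (q : ↥(A.comap ι))) (hT1 : IsConc M q T1)
    {jj : E} (hj : T1.jE jj = jqModC K) {t₀ : E} (ht : t₀ = T1.x ∨ t₀ = T1.x⁻¹) :
    JData (K := K) (q : ↥(A.comap ι)) q (algebraMap E ↥(FK K (M * q)) t₀) T1.Vi T1.V0
      (algebraMap E ↥(FK K (M * q)) jj) (concD K M q T1.hq) (T1.w (concD K M q T1.hq))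
      (T1.i2 jj / algebraMap E ↥(FK K (M * q)) jj ^ q) (T1.i2 jj) ((q : ↥(A.comap ι)) ^ 12) := by
  have hJ := hT1.jdHyp hqM hj (s := RingEquiv.refl E) rfl
  have hrel : ∃ (B : (↥(A.comap ι))[X]) (r : ℕ), 1 ≤ r ∧ IsUnit (B.coeff 0) ∧
      jj * t₀ ^ r = evR ↥(A.comap ι) K t₀ B := by
    rcases ht with rfl | rfl
    · exact hT1.rel_fin hj
    · exact hT1.rel_inf hj
  exact jData_of_two' hunr hJ.j_ne hJ.j_mem hJ.j_inv_mem (conc_hfi hT1 hj) hrel hJ.c_ne hJ.D_mul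
    hJ.D_mem hJ.D_unit hJ.wD_mem hJ.D_int hJ.wD_int hJ.g_int

end Fermat.Agent.S36.Inst
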