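import Fermat.Agent.S36.Inst.Pole
import Fermat.Agent.S36.LG.Sat

set_option autoImplicit false
set_option linter.unusedSectionVars false

/-!
# S36 / Inst / CuspSep : a cuspidal closed point lies on ONE component   (task I-CuspSep;  LOCGEN (c) of board #411)

Three branches `V 0 = V_∞`, `V 1 = V_mid`, `V 2 = V_0` (`VertFam ϖ t V`, `V : Fin 3 → ValuationSubring F`).
`J = j`, `Jq = j(qz)`, `Jqq = j(q²z)`, `g₁ = Jq / J^q`, `g₂ = Jqq / Jq^q`, `g₃ = Jq / Jqq^q`.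

| | `V_∞` | `V_mid` | `V_0` |
| `g₁` | `≡ 1` | `≡ 1` | `≡ (Jq⁻¹)^k` |
| `g₂` | `≡ 1` | `≡ (Jqq⁻¹)^k` | `≡ (Jqq⁻¹)^k` |
| `g₃` | .. | `≡ 1` | `≡ 1` |

SKETCH of `CuspSep.unique` (same argument as `S34/SS/Cusp.lean`, case `τ ∈ n`, done twice, directly at the top level).  `hJ : InMax n J⁻¹`.  `O = O_n`.
 (1) `g₁ ∈ O`: `ϖ^k g₁ ∈ CInt R K J⁻¹`, `InLoc n J⁻¹` ⟹ `InLoc n (ϖ^k g₁)` (`InLoc.of_mem_CInt`); `g₁ ∈ V k` for all `k` (`g₁ = (g₁ - 1) + 1`, `g₁_mem_0`); `hV.sat_loc`.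
 (2) if `V 0` or `V 1` is centred: `g₁ - 1 ∈ O ∩ 𝔪_V` ⟹ `InMax n (g₁ - 1)` (`LG.inMax_of_mem_nonunits` / `Centered.inMax`), so `g₁` is a `LocUnit` (`LocUnit.one_add`),
     `Jq⁻¹ = (J⁻¹)^q * g₁⁻¹` is `InMax` (`q ≥ 1`).  If moreover `V 2` is centred: `g₁ - (Jq⁻¹)^k ∈ O ∩ 𝔪_{V 2}` is `InMax`, `(Jq⁻¹)^k` is `InMax`, so `g₁` is `InMax`: contradiction (`LG.not_locUnit_of_inMax`).
 (3) if `V 0` and `V 1` are centred: `Jq⁻¹` is `InMax` by (2); `g₂ ∈ O` as in (1) (with `Jq⁻¹`); `g₂ - 1 ∈ 𝔪_{V 0}` ⟹ `g₂` `LocUnit`, `Jqq⁻¹ = (Jq⁻¹)^q g₂⁻¹` `InMax`; `g₂ - (Jqq⁻¹)^k ∈ 𝔪_{V 1}` ⟹ `g₂` `InMax`: contradiction.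
-/

noncomputable section

namespace Fermat.Agent.S36.Inst

open Polynomial IntermediateField Fermat.Agent.S18 Fermat.Agent.S34 Fermat.Agent.S36.LG

variable {R K F : Type} [CommRing R] [IsDomain R] [IsDiscreteValuationRing R] [Field K] [CharZero K]
  [Algebra R K] [IsFractionRing R K] [Field F] [Algebra K F] {ϖ : R}

/-- the data separating the three components at the cusps. -/
structure CuspSep (ϖ : R) (q : ℕ) (V : Fin 3 → ValuationSubring F) (J Jq Jqq g₁ g₂ : F) : Prop where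
  J_ne : J ≠ 0
  Jq_ne : Jq ≠ 0
  Jqq_ne : Jqq ≠ 0
  g₁_mul : g₁ * J ^ q = Jq
  g₂_mul : g₂ * Jq ^ q = Jqq
  g₁_int : ∃ k : ℕ, rE R K F ϖ ^ k * g₁ ∈ CInt R K J⁻¹
  g₂_int : ∃ k : ℕ, rE R K F ϖ ^ k * g₂ ∈ CInt R K Jq⁻¹
  g₁_oo : g₁ - 1 ∈ (V 0).nonunits
  g₁_mid : g₁ - 1 ∈ (V 1).nonunits
  g₁_0 : ∃ k : ℕ, 1 ≤ k ∧ g₁ - Jq⁻¹ ^ k ∈ (V 2).nonunits
  g₁_mem_0 : g₁ ∈ V 2
  g₂_oo : g₂ - 1 ∈ (V 0).nonunits
  g₂_mid : ∃ k : ℕ, 1 ≤ k ∧ g₂ - Jqq⁻¹ ^ k ∈ (V 1).nonunits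
  g₂_mem_mid : g₂ ∈ V 1
  g₂_mem_0 : g₂ ∈ V 2

section aux

variable {t : F} {V : Fin 3 → ValuationSubring F} {n : Ideal (CInt R K t)}

theorem cuspSep_mem_of_sub_one (W : ValuationSubring F) {g : F} (h : g - 1 ∈ W.nonunits) : g ∈ W := by
  have e : g = (g - 1) + 1 := by ring
  rw [e]
  exact add_mem (mem_of_mem_nonunits W h) W.one_mem

theorem cuspSep_inLoc (hϖ : Irreducible ϖ) (hV : VertFam (K := K) ϖ t V) [n.IsPrime] {a g : F}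
    (hint : ∃ k : ℕ, rE R K F ϖ ^ k * g ∈ CInt R K a⁻¹) (hmem : ∀ k, g ∈ V k)
    (ha : InMax n a⁻¹) : InLoc n g := by
  obtain ⟨k, hk⟩ := hint
  exact hV.sat_loc hϖ k (InLoc.of_mem_CInt ha.inLoc hk) fun i _ => hmem i

theorem cuspSep_inMax_pow [n.IsPrime] {z : F} (hz : InMax n z) {r : ℕ} (hr : 1 ≤ r) :
    InMax n (z ^ r) := by
  obtain ⟨r, rfl⟩ : ∃ r', r = r' + 1 := ⟨r - 1, by omega⟩
  rw [pow_succ]
  exact InMax.mul_left (hz.inLoc.pow r) hz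

theorem cuspSep_unit (hϖ : Irreducible ϖ) (hV : VertFam (K := K) ϖ t V) [n.IsPrime] {q : ℕ}
    (hq : 1 ≤ q) {a b g : F} (_ha0 : a ≠ 0) (hmul : g * a ^ q = b) (hg : InLoc n g)
    (ha : InMax n a⁻¹) {i : Fin 3} (hc : Centered (V i) n) (h1 : g - 1 ∈ (V i).nonunits) :
    LocUnit n g ∧ InMax n b⁻¹ := by
  have hm : InMax n (g - 1) :=
    Centered.inMax (fun y hy => hV.mem_of_mem_CInt hϖ hy i) hc
      (hg.sub (InLoc.of_mem n (one_mem _))) h1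
  have hu : LocUnit n g := by
    have := LocUnit.one_add hm
    rwa [add_sub_cancel] at this
  refine ⟨hu, ?_⟩
  have e : b⁻¹ = g⁻¹ * a⁻¹ ^ q := by
    rw [← hmul, mul_inv, inv_pow]
  rw [e]
  exact InMax.mul_left hu.2.2 (cuspSep_inMax_pow ha hq)

theorem cuspSep_inMax (hϖ : Irreducible ϖ) (hV : VertFam (K := K) ϖ t V) [n.IsPrime] {b g : F}
    (hg : InLoc n g) (hb : InMax n b⁻¹) {j : Fin 3} (hc : Centered (V j) n)
    (h : ∃ k : ℕ, 1 ≤ k ∧ g - b⁻¹ ^ k ∈ (V j).nonunits) : InMax n g := by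
  obtain ⟨k, hk, h⟩ := h
  have hbk := cuspSep_inMax_pow hb hk
  have hm : InMax n (g - b⁻¹ ^ k) :=
    Centered.inMax (fun y hy => hV.mem_of_mem_CInt hϖ hy j) hc (hg.sub hbk.inLoc) h
  have := hm.add hbk
  rwa [sub_add_cancel] at this

end aux

theorem CuspSep.g₁_mem {q : ℕ} {V : Fin 3 → ValuationSubring F} {J Jq Jqq g₁ g₂ : F}
    (h : CuspSep (K := K) ϖ q V J Jq Jqq g₁ g₂) (k : Fin 3) : g₁ ∈ V k := by
  fin_cases k
  · exact cuspSep_mem_of_sub_one _ h.g₁_oo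
  · exact cuspSep_mem_of_sub_one _ h.g₁_mid
  · exact h.g₁_mem_0

theorem CuspSep.g₂_mem {q : ℕ} {V : Fin 3 → ValuationSubring F} {J Jq Jqq g₁ g₂ : F}
    (h : CuspSep (K := K) ϖ q V J Jq Jqq g₁ g₂) (k : Fin 3) : g₂ ∈ V k := by
  fin_cases k
  · exact cuspSep_mem_of_sub_one _ h.g₂_oo
  · exact h.g₂_mem_mid
  · exact h.g₂_mem_0

/-- step (2) of the sketch, exported: on `V_∞` or `V_mid` the point is cuspidal for `Jq` too and `g₁` is a unit. -/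
theorem CuspSep.g₁_unit (hϖ : Irreducible ϖ) {q : ℕ} (hq : 1 ≤ q) {t : F}
    {V : Fin 3 → ValuationSubring F} (hV : VertFam (K := K) ϖ t V) {J Jq Jqq g₁ g₂ : F}
    (h : CuspSep (K := K) ϖ q V J Jq Jqq g₁ g₂) {n : Ideal (CInt R K t)} (hn : IsClosedPt ϖ n)
    (hJ : InMax n J⁻¹) (hk : Centered (V 0) n ∨ Centered (V 1) n) :
    LocUnit n g₁ ∧ InMax n Jq⁻¹ := by
  have := hn.max.isPrime
  have hg := cuspSep_inLoc hϖ hV h.g₁_int h.g₁_mem hJ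
  rcases hk with hk | hk
  · exact cuspSep_unit hϖ hV hq h.J_ne h.g₁_mul hg hJ hk h.g₁_oo
  · exact cuspSep_unit hϖ hV hq h.J_ne h.g₁_mul hg hJ hk h.g₁_mid

/-- at a cuspidal closed point at most one component is centred. -/
theorem CuspSep.unique (hϖ : Irreducible ϖ) {q : ℕ} (hq : 1 ≤ q) {t : F}
    {V : Fin 3 → ValuationSubring F} (hV : VertFam (K := K) ϖ t V) {J Jq Jqq g₁ g₂ : F}
    (h : CuspSep (K := K) ϖ q V J Jq Jqq g₁ g₂) {n : Ideal (CInt R K t)} (hn : IsClosedPt ϖ n)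
    (hJ : InMax n J⁻¹) {k l : Fin 3} (hk : Centered (V k) n) (hl : Centered (V l) n) : k = l := by
  have := hn.max.isPrime
  have hg := cuspSep_inLoc hϖ hV h.g₁_int h.g₁_mem hJ
  -- `V 2` is incompatible with `V 0` and `V 1`
  have hA : (Centered (V 0) n ∨ Centered (V 1) n) → Centered (V 2) n → False := by
    intro h01 h2
    obtain ⟨hu, hq'⟩ := h.g₁_unit hϖ hq hV hn hJ h01
    exact not_locUnit_of_inMax n (cuspSep_inMax hϖ hV hg hq' h2 h.g₁_0) hu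
  -- `V 0` is incompatible with `V 1`
  have hB : Centered (V 0) n → Centered (V 1) n → False := by
    intro h0 h1
    obtain ⟨-, hq'⟩ := h.g₁_unit hϖ hq hV hn hJ (Or.inl h0)
    have hg2 := cuspSep_inLoc hϖ hV h.g₂_int h.g₂_mem hq'
    obtain ⟨hu, hqq⟩ := cuspSep_unit hϖ hV hq h.Jq_ne h.g₂_mul hg2 hq' h0 h.g₂_oo
    exact not_locUnit_of_inMax n (cuspSep_inMax hϖ hV hg2 hqq h1 h.g₂_mid) hu
  fin_cases k <;> fin_cases l
  · rfl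
  · exact (hB hk hl).elim
  · exact (hA (Or.inl hk) hl).elim
  · exact (hB hl hk).elim
  · rfl
  · exact (hA (Or.inr hk) hl).elim
  · exact (hA (Or.inl hl) hk).elim
  · exact (hA (Or.inr hl) hk).elim
  · rfl

end Fermat.Agent.S36.Inst
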