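import Fermat.Agent.S36.Inst.Abs
import Fermat.Agent.S36.V3.OutW

set_option autoImplicit false
set_option linter.unusedSectionVars false

/-!
# S36 / Inst / Feed : `ρ = j(q²z)/j(z)` is a unit at the cuspidal closed points lying on `V_mid` only

Abstract (`T : V3.Three`).  `t₀ : E` the chart parameter, `J = ι₀ jj`, `Jq = β (a jj)`, `Jqq = ι₂ jj`, `g₁ = α g = Jq / J^q`, `g₃ = w g₁ = Jq / Jqq^q`.
Both `g₁`, `g₃` are `≡ 1` on `V_mid`, and `ρ^q = g₁ / g₃`.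
-/

noncomputable section

namespace Fermat.Agent.S36.V3

open ModularCurve Polynomial IntermediateField Fermat.Agent.S18 Fermat.Agent.S18.V Fermat.Agent.S34.V2
open Fermat.Agent.S34 Fermat.Agent.S36.LG Fermat.Agent.S36.Inst Fermat.Agent.S36.Tor

namespace Three

variable {R K : Type} [CommRing R] [IsDomain R] [IsDiscreteValuationRing R] [Field K] [CharZero K]
  [Algebra R K] [IsFractionRing R K] {R' K' : Type} [CommRing R'] [IsDomain R'] [IsLocalRing R']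
  [Field K'] [Algebra R' K'] [IsFractionRing R' K'] {q : ℕ} [NeZero q] {E F1 F : Type}
  [Field E] [Field F1] [Field F] [Algebra K E] [Algebra K F1] [Algebra K F] [Algebra E F1]
  [Algebra F1 F] [Algebra E F] [IsScalarTower K E F1] [IsScalarTower K F1 F] [IsScalarTower E F1 F]
  [IsScalarTower K E F] {T1 : Two R K q E F1} (T : Three R' K' F T1)

/-- `w` fixes `j(qz)`. -/
theorem w_i1 (z : E) : T.w (T.β (algebraMap E F1 z)) = T.β (algebraMap E F1 z) := by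
  conv_lhs => rw [T.β_a, T.w_α, T1.i2_apply, T1.w_w]

/-- a cuspidal point: the chart parameter vanishes. -/
theorem feed_inMax_t {t J : F} {n : Ideal (CInt R K t)} [n.IsPrime] {B : R[X]} {r : ℕ}
    (hJ0 : J ≠ 0) (e : J * t ^ r = evR R K t B) (hJ : InMax n J⁻¹) : InMax n t := by
  by_contra ht
  have htC : t ∈ CInt R K t := self_mem_CInt t
  have h1 : InLoc n J := inLoc_of_J_eq e (LocUnit.of_not_inMax (InLoc.of_mem n htC) ht)
  have h2 : InMax n (J * J⁻¹) := InMax.mul_left h1 hJ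
  rw [mul_inv_cancel₀ hJ0] at h2
  refine not_locUnit_of_inMax n h2 ⟨one_ne_zero, InLoc.of_mem n (one_mem _), ?_⟩
  rw [inv_one]
  exact InLoc.of_mem n (one_mem _)

variable {t₀ : E}

/-- the pole of `j(z)` at `n` is a pole of `j(q²z)`. -/
theorem feed_Jqq (ht0 : t₀ ≠ 0) (hM8' : T1.i2 t₀⁻¹ ∈ CInt R K (algebraMap E F1 t₀⁻¹)) {jj : E}
    (hj : jj ≠ 0)
    (hrel : ∃ (B : R[X]) (r : ℕ), 1 ≤ r ∧ IsUnit (B.coeff 0) ∧ jj * t₀ ^ r = evR R K t₀ B)
    {n : Ideal (CInt R K (algebraMap E F t₀))} [n.IsPrime]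
    (hJ : InMax n (algebraMap E F jj)⁻¹) : InMax n (T.ι₂ jj)⁻¹ := by
  obtain ⟨B, r, hr, hB, e⟩ := hrel
  have e0 : algebraMap E F jj * algebraMap E F t₀ ^ r = evR R K (algebraMap E F t₀) B := by
    have := congrArg T.ι₀ e
    rwa [map_mul, map_pow, ss_algHom_evR, T.ι₀_apply, T.ι₀_apply] at this
  have e2 : T.ι₂ jj * T.ι₂ t₀ ^ r = evR R K (T.ι₂ t₀) B := by
    have := congrArg T.ι₂ e
    rwa [map_mul, map_pow, ss_algHom_evR] at this
  have ht : InMax n (algebraMap E F t₀) :=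
    feed_inMax_t ((_root_.map_ne_zero _).2 hj) e0 hJ
  have h1 := T.t_mem_ι₂ hM8'
  have hs : InMax n (T.ι₂ t₀) := by
    have h2 := inMax_inv_of_mem_CInt (n := n) (a := algebraMap E F t₀⁻¹) (b := T.ι₂ t₀⁻¹)
      ((_root_.map_ne_zero _).2 (inv_ne_zero ht0)) ((_root_.map_ne_zero _).2 (inv_ne_zero ht0)) h1
      (by rwa [map_inv₀, inv_inv])
    rwa [map_inv₀, inv_inv] at h2
  exact inMax_inv_of_J_eq hr hB e2 hs

/-- **`ρ = j(q²z)/j(z)` is a unit** at the cuspidal closed points which lie on `V_mid` only. -/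
theorem feed_rho {t : F} (hV : VertFam (K := K) (q : R) t T.Vf) {jj : E} {g : F1}
    (hS : CuspSep (K := K) (q : R) q T.Vf (algebraMap E F jj) (T.β (algebraMap E F1 jj)) (T.ι₂ jj)
      (algebraMap F1 F g) (T.β g))
    {n : Ideal (CInt R K t)} (hn : IsClosedPt (q : R) n)
    (hJ : InMax n (algebraMap E F jj)⁻¹) (hJqq : InMax n (T.ι₂ jj)⁻¹)
    (honly : ∀ k, Centered (T.Vf k) n → k = 1) :
    LocUnit n (T.ι₂ jj / algebraMap E F jj) := by
  have hp := hn.max.isPrime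
  have hq1 : 1 ≤ q := Nat.one_le_iff_ne_zero.2 (NeZero.ne q)
  obtain ⟨k₀, hk₀⟩ := hV.exists_centered T.hunr hn
  have hc1 : Centered (T.Vf 1) n := honly k₀ hk₀ ▸ hk₀
  obtain ⟨hg₁, -⟩ := hS.g₁_unit T.hunr hq1 hV hn hJ (Or.inr hc1)
  set J := algebraMap E F jj with hJdef
  set Jq := T.β (algebraMap E F1 jj) with hJq
  set Jqq := T.ι₂ jj with hJqqdef
  set g₁ := algebraMap F1 F g with hg₁def
  have hwJ : T.w J = Jqq := rfl
  have hwJq : T.w Jq = Jq := T.w_i1 jj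
  -- `g₃ = w g₁`
  have hg₃mul : T.w g₁ * Jqq ^ q = Jq := by
    have := congrArg T.w hS.g₁_mul
    rwa [map_mul, map_pow, hwJ, hwJq] at this
  have hg₃mid : T.w g₁ - 1 ∈ (T.Vf 1).nonunits := by
    have h := hS.g₁_mid
    rw [Vf_one] at h ⊢
    have e : T.w g₁ - 1 = T.w (g₁ - 1) := by rw [map_sub, map_one]
    rw [e]
    exact T.w_mem_Vmid_nonunits.2 h
  have hg₃int : ∃ k : ℕ, rE R K F (q : R) ^ k * T.w g₁ ∈ CInt R K Jqq⁻¹ := by
    obtain ⟨k, hk⟩ := hS.g₁_int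
    refine ⟨k, ?_⟩
    have h := inst_algHom_CInt (R := R) (T.w : F →ₐ[K] F) (t := J⁻¹) (t' := Jqq⁻¹) (by
      have : (T.w : F →ₐ[K] F) J⁻¹ = Jqq⁻¹ := by
        rw [map_inv₀]; rfl
      rw [this]; exact self_mem_CInt _) hk
    rw [map_mul, map_pow, ss_algHom_rE] at h
    exact h
  have hg₃loc : InLoc n (T.w g₁) := by
    obtain ⟨k, hk⟩ := hg₃int
    refine hV.sat_loc T.hunr k (InLoc.of_mem_CInt hJqq.inLoc hk) fun i hi => ?_
    rw [honly i hi]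
    exact cuspSep_mem_of_sub_one _ hg₃mid
  obtain ⟨hg₃, -⟩ := cuspSep_unit T.hunr hV hq1 hS.Jqq_ne hg₃mul hg₃loc hJqq hc1 hg₃mid
  -- `ρ^q = g₁ / g₃`
  have hJ0 := hS.J_ne
  have hJqq0 := hS.Jqq_ne
  have hρ : (Jqq / J) ^ q = g₁ * (T.w g₁)⁻¹ := by
    have h1 : g₁ = Jq / J ^ q := by rw [eq_div_iff (pow_ne_zero _ hJ0)]; exact hS.g₁_mul
    have h3 : T.w g₁ = Jq / Jqq ^ q := by rw [eq_div_iff (pow_ne_zero _ hJqq0)]; exact hg₃mul
    have hJq0 := hS.Jq_ne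
    rw [h3, h1, div_pow]
    have hA : J ^ q ≠ 0 := pow_ne_zero _ hJ0
    have hB : Jqq ^ q ≠ 0 := pow_ne_zero _ hJqq0
    field_simp
  have hρ' : ((Jqq / J)⁻¹) ^ q = g₁⁻¹ * T.w g₁ := by
    rw [inv_pow, hρ, mul_inv, inv_inv]
  refine ⟨div_ne_zero hJqq0 hJ0, InLoc.of_pow (NeZero.ne q) ?_, InLoc.of_pow (NeZero.ne q) ?_⟩
  · rw [hρ]; exact hg₁.2.1.mul hg₃.2.2
  · rw [hρ']; exact hg₁.2.2.mul hg₃.2.1

end Three

end Fermat.Agent.S36.V3
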