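import Fermat.Agent.S36.Mid.Main
import Fermat.Agent.S36.Core.Defs
import Fermat.Agent.S34.V2.ConcB

set_option autoImplicit false
set_option linter.unusedSectionVars false

/-!
# S36 / Inst / FeedIn : the four modular functions of `Mid.MidIn` for a concrete `T1`
-/

noncomputable section

namespace Fermat.Agent.S36.Inst

open ModularCurve Fermat.Agent.S18 Fermat.Agent.S34 Fermat.Agent.S34.V2 Fermat.Agent.Mod

theorem exists_midIn {R K : Type} [CommRing R] [IsDomain R] [IsDiscreteValuationRing R] [Field K]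
    [CharZero K] [Algebra R K] [IsFractionRing R K] {M q : ℕ} [NeZero M] [NeZero q] {E : Type}
    [Field E] [Algebra K E] [Algebra E ↥(FK K (M * q))] {T1 : Two R K q E ↥(FK K (M * q))}
    (hq : q.Prime) (hr : Core.auxR q ∣ M) (hT1 : IsConc M q T1) {jj : E}
    (hj : T1.jE jj = jqModC K) :
    ∃ (x3E x2E : E) (d₁ : ↥(FK K (M * q))), Mid.MidIn T1 jj x3E x2E d₁ := by
  have h2 : q ≠ 2 → ∃ y : E, T1.jE y = xK K line2 := by
    intro hq2
    refine hT1.jE_surj _ (xK_mem line2 (Or.inl rfl) K M ?_)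
    refine Dvd.dvd.trans ?_ hr
    rw [Core.auxR, if_neg hq2]
    show 2 ∣ _
    split_ifs <;> norm_num
  have h3 : q ≠ 2 → q ≠ 3 → ∃ y : E, T1.jE y = xK K line3 := by
    intro hq2 hq3
    refine hT1.jE_surj _ (xK_mem line3 (Or.inr rfl) K M ?_)
    refine Dvd.dvd.trans ?_ hr
    rw [Core.auxR, if_neg hq2, if_neg hq3]
    show 3 ∣ _
    norm_num
  classical
  refine ⟨if h : q ≠ 2 ∧ q ≠ 3 then (h3 h.1 h.2).choose else 0,
    if h : q ≠ 2 then (h2 h).choose else 0,
    ⟨DKinv K q, DKinv_mem K q (M * q) hq (Dvd.intro_left M rfl)⟩, hj, ?_, ?_, ?_⟩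
  · intro hq2
    rw [dif_pos hq2]
    exact (h2 hq2).choose_spec
  · intro hq2 hq3
    rw [dif_pos ⟨hq2, hq3⟩]
    exact (h3 hq2 hq3).choose_spec
  · rw [hT1.jF_eq]

end Fermat.Agent.S36.Inst
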