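import Fermat.Agent.S36.Inst.LocGen
import Fermat.Agent.S36.V3.ThreeBranches
import Fermat.Agent.S36.V3.ThreeNorm
import Fermat.Agent.S34.Inst.Basic

set_option autoImplicit false
set_option linter.unusedSectionVars false

/-!
# S36 / Inst / FromThree : `VertFam`, the three `Side0`, uniformisers, from `T : V3.Three`   (task I-Vert; the `Side0` are in `SideFin.lean`, `SideInf.lean`, sketches below)

`T : Three R' K' F T1`, `ϖ = (q : R)`.  `T.Vf = ![Voo, Vmid, V0]`, `T.ι₀ : E →ₐ[K] F` the inclusion, `T.ι₂ = w ∘ ι₀ = V_{q²}`.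
`h1 : Chart1 K q T1.x T1.VE`, `h1' : Chart1 K q T1.x⁻¹ T1.VE` (level `M`; helper16's `exists_two0`).

SKETCHES.
* `vertFam`: `trans := T.trans_xF`, `fin := T.fin_xF h1.fin`, `inO_iff`: `T.inO_iff T.hunr h1.inO_iff` + `Fin.forall_fin_succ` (`simp [Vf, Fin.forall_fin_succ]`);
  `mem`: `T.rE_mem_Voo_nonunits.2 T.hunr.not_isUnit` etc. (`fin_cases k`);  `ram`: `e = 1` (`T.div_unif_oo T.hunr`, `div_eq_mul_inv`, `mul_comm`), `e = q - 1` (`ram_mid`), `e = 1`.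
* `ram_mid`: `z / Y ∈ Vmid` (`T.div_Y_mid`), so `z^(q-1) / Y^(q-1) ∈ Vmid`; times `Y^(q-1) / q ∈ Vmid` (`T.Y_pow_div_unif`); `T.Y_ne_zero`.
* `mem_CInt_of_int`: `S34.exists_pow_mul_mem_CInt` + `VertFam.sat`.
* `side_oo_fin`, `side_mid_fin`: `comap := T.map_mem_Voo` (`ι₀ y = algebraMap E F y` by `rfl`/`IsScalarTower.coe_toAlgHom'`), `C_le := T.CInt_le_Voo`, `mapC`: `S34.inst_algHom_CInt` with `ι₀ T1.x = T.xF` (`T.xF_eq`) and `self_mem_CInt`,
  `res := T.res_deg_one_oo`, `tpar := ⟨T1.x, self_mem, by simp: t - ι₀ x = 0⟩`.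
* `side_0_fin`: `comap`: `T.w_mem_V0` + `T.map_mem_Voo`; `mapC`: `inst_algHom_CInt` with `ι₂ T1.x = T.xqq ∈ CInt R K T.xF` (hypothesis `hxqq`); `res := T.res_deg_one_0`;
  `tpar`: `y := T1.x ^ (q * q)`: `T.xF - w (ι₀ (x^(q*q))) ∈ 𝔪_0 ⟺ (apply w, `T.mem_V0_nonunits`, `T.w_w`) T.xqq - (T.xF)^(q*q) ∈ 𝔪_oo`; `T.jF T.xqq = qExpand q (qExpand q (cR x₀))` (`T.jF_xqq`),
  `T1.hfrob : qExpand q X - X^q ∈ 𝔪` for `X = T1.jE T1.x = cR x₀`; `qExpand q (qExpand q X) - X^(q*q) = qExpand q (qExpand q X - X^q) + ((qExpand q X)^q - (X^q)^q)`;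
  first term: `qExpand` preserves `(gaussL R K).nonunits` on `InQF` elements (`S34/V2/OpsQ.lean`: `qExpand_mem_nonunits_iff` or similar), second: `S34.ss_pow_sub_pow_mem`.
* the `_inf` versions: `C_le`: `(T.vertFam h1).inv`.`mem_of_mem_CInt`; `mapC`: `inst_algHom_CInt` with `ι (x⁻¹) = (ι x)⁻¹`; `tpar` for `V0`: `y := (T1.x⁻¹)^(q*q)`, from the `_fin` congruence and the fact that `T.xF`, `T.xqq` are units of `V0`
  (`a⁻¹ - b⁻¹ = (b - a) a⁻¹ b⁻¹`; `T1.x` is a unit of `VE`: `x₀` has a unit coefficient; see `T1.x_unit`-type lemmas in `S34/V2/TwoBasic.lean`).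
-/

noncomputable section

namespace Fermat.Agent.S36.V3

open ModularCurve Polynomial IntermediateField Fermat.Agent.S18 Fermat.Agent.S18.V Fermat.Agent.S34.V2
open Fermat.Agent.S34 Fermat.Agent.S36.LG Fermat.Agent.S36.Inst

namespace Three

variable {R K : Type} [CommRing R] [IsDomain R] [IsDiscreteValuationRing R] [Field K] [CharZero K]
  [Algebra R K] [IsFractionRing R K] {R' K' : Type} [CommRing R'] [IsDomain R'] [IsLocalRing R']
  [Field K'] [Algebra R' K'] [IsFractionRing R' K'] {q : ℕ} [NeZero q] {E F1 F : Type}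
  [Field E] [Field F1] [Field F] [Algebra K E] [Algebra K F1] [Algebra K F] [Algebra E F1]
  [Algebra F1 F] [Algebra E F] [IsScalarTower K E F1] [IsScalarTower K F1 F] [IsScalarTower E F1 F]
  [IsScalarTower K E F] {T1 : Two R K q E F1} (T : Three R' K' F T1)

/-- the three components: `0 ↦ Voo`, `1 ↦ Vmid`, `2 ↦ V0`. -/
def Vf : Fin 3 → ValuationSubring F := ![T.Voo, T.Vmid, T.V0]

@[simp] theorem Vf_zero : T.Vf 0 = T.Voo := rfl
@[simp] theorem Vf_one : T.Vf 1 = T.Vmid := rfl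
@[simp] theorem Vf_two : T.Vf 2 = T.V0 := rfl

/-- the inclusion of level `M`. -/
def ι₀ (_T : Three R' K' F T1) : E →ₐ[K] F := IsScalarTower.toAlgHom K E F

/-- `V_{q²}`. -/
def ι₂ : E →ₐ[K] F := (T.w : F →ₐ[K] F).comp T.ι₀

/-- `α` as a `K`-algebra homomorphism. -/
def αK (_T : Three R' K' F T1) : F1 →ₐ[K] F := IsScalarTower.toAlgHom K F1 F

theorem ι₀_apply (y : E) : T.ι₀ y = algebraMap E F y := rfl

theorem ι₂_apply (y : E) : T.ι₂ y = T.w (algebraMap E F y) := rfl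

theorem αK_apply (z : F1) : T.αK z = algebraMap F1 F z := rfl

/-! ### I-Vert -/

theorem unif_oo' : ∀ z ∈ T.Voo.nonunits, (rE R K F (q : R))⁻¹ * z ∈ T.Voo := by
  intro z hz
  rw [mul_comm, ← div_eq_mul_inv]
  exact T.div_unif_oo T.hunr hz

theorem unif_0' : ∀ z ∈ T.V0.nonunits, (rE R K F (q : R))⁻¹ * z ∈ T.V0 := by
  intro z hz
  rw [mul_comm, ← div_eq_mul_inv]
  exact T.div_unif_0 T.hunr hz

theorem ram_mid : ∀ z ∈ T.Vmid.nonunits, (rE R K F (q : R))⁻¹ * z ^ (q - 1) ∈ T.Vmid := by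
  intro z hz
  have h1 : (z / T.Y) ^ (q - 1) ∈ T.Vmid := pow_mem (T.div_Y_mid hz) _
  have h2 := T.Y_pow_div_unif
  have hY : T.Y ^ (q - 1) ≠ 0 := pow_ne_zero _ T.Y_ne_zero
  have e : (rE R K F (q : R))⁻¹ * z ^ (q - 1) =
      (z / T.Y) ^ (q - 1) * (T.Y ^ (q - 1) / rE R K F (q : R)) := by
    rw [div_pow, div_mul_div_comm, mul_comm (T.Y ^ (q - 1)) (rE R K F (q : R)),
      mul_div_mul_right _ _ hY, div_eq_mul_inv, mul_comm]
  rw [e]
  exact mul_mem h1 h2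

theorem vertFam (h1 : Chart1 K (q : R) T1.x T1.VE) : VertFam (K := K) (q : R) T.xF T.Vf where
  trans := T.trans_xF
  fin := T.fin_xF h1.fin
  inO_iff y := by
    rw [T.inO_iff T.hunr h1.inO_iff]
    simp [Fin.forall_fin_succ]
  mem k := by
    fin_cases k
    · exact T.rE_mem_Voo_nonunits.2 T.hunr.not_isUnit
    · exact T.rE_mem_Vmid_nonunits.2 T.hunr.not_isUnit
    · exact T.rE_mem_V0_nonunits.2 T.hunr.not_isUnit
  ram k := by
    fin_cases k
    · exact ⟨1, one_pos, fun z hz => by rw [pow_one]; exact T.unif_oo' z hz⟩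
    · refine ⟨q - 1, ?_, T.ram_mid⟩
      have := T1.hq.two_le
      omega
    · exact ⟨1, one_pos, fun z hz => by rw [pow_one]; exact T.unif_0' z hz⟩

theorem vertFam_inv (h1 : Chart1 K (q : R) T1.x T1.VE) :
    VertFam (K := K) (q : R) T.xF⁻¹ T.Vf :=
  (T.vertFam h1).inv T.hunr

/-- integral over `K[t]` and in the three valuation rings ⟹ integral over `R[t]`. -/
theorem mem_CInt_of_int {t : F} (hV : VertFam (K := K) (q : R) t T.Vf) {z : F}
    (hz : IsIntegral (Algebra.adjoin K {t}) z) (hoo : z ∈ T.Voo) (hmid : z ∈ T.Vmid)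
    (h0 : z ∈ T.V0) : z ∈ CInt R K t := by
  obtain ⟨k, hk⟩ := Fermat.Agent.S34.exists_pow_mul_mem_CInt (R := R) (K := K) T.hunr hz
  refine hV.sat T.hunr k hk fun j => ?_
  fin_cases j
  · exact hoo
  · exact hmid
  · exact h0

end Three

end Fermat.Agent.S36.V3
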