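import Fermat.Agent.S36.Inst.Tri
import Fermat.Agent.S36.Inst.FromThree
import Fermat.Agent.S36.ModA.CharQ
import Fermat.Agent.S34.V2.Frob

set_option autoImplicit false
set_option linter.unusedSectionVars false

/-!
# S36 / Inst / GAbs : `GTable` and `TriCong` for `T : V3.Three` from the expansions of `G1`, `G2`

`GHyp D T J G1 G2` collects the expansions of `G1`, `G2` at the three cusps (`ModA/Main.lean`: `W_G12`, `Mid_G12`) and integrality over `K[J]`.
-/

noncomputable section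

namespace Fermat.Agent.S36.Inst

open ModularCurve Polynomial IntermediateField Fermat.Agent.S18 Fermat.Agent.S18.V Fermat.Agent.S34.V2
open Fermat.Agent.S34 Fermat.Agent.S36.LG Fermat.Agent.S36.V3 Fermat.Agent.S36.ModA

variable {R K : Type} [CommRing R] [IsDomain R] [IsDiscreteValuationRing R] [Field K] [CharZero K]
  [Algebra R K] [IsFractionRing R K] {R' K' : Type} [CommRing R'] [IsDomain R'] [IsLocalRing R']
  [Field K'] [Algebra R' K'] [IsFractionRing R' K'] {q : ℕ} [NeZero q] {E F1 F : Type}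
  [Field E] [Field F1] [Field F] [Algebra K E] [Algebra K F1] [Algebra K F] [Algebra E F1]
  [Algebra F1 F] [Algebra E F] [IsScalarTower K E F1] [IsScalarTower K F1 F] [IsScalarTower E F1 F]
  [IsScalarTower K E F] {T1 : Two R K q E F1}

/-- the expansions of `G1`, `G2` at the three cusps. -/
structure GHyp {r : ℕ} (D : WtOne r) (T : Three R' K' F T1) (J G1 G2 : F) : Prop where
  eps : D.chi q * D.chi q = 1
  jF1 : T.jF G1 = D.G1 K q
  jF2 : T.jF G2 = D.G2 K q
  w1 : T.jF (T.w G1) * ((q : LaurentSeries K) * D.G2 K q) = ((D.chi q : ℤ) : LaurentSeries K)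
  w2 : T.jF (T.w G2) * ((q : LaurentSeries K) * D.G1 K q) = ((D.chi q : ℤ) : LaurentSeries K)
  m1 : T.jm G1 = D.G1 K' q
  m2 : T.jm G2 * ((q : LaurentSeries K') * Vz K' q (D.thS K')) =
    ((D.chi q : ℤ) : LaurentSeries K') *
      S28.twist (Units.map (algebraMap R' K' : R' →* K') T.ζ) (D.thS K')
  int1 : IsIntegral (Algebra.adjoin K {J}) G1
  int1' : IsIntegral (Algebra.adjoin K {J}) G1⁻¹
  int2 : IsIntegral (Algebra.adjoin K {J}) G2
  int2' : IsIntegral (Algebra.adjoin K {J}) G2⁻¹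

/-- a series with an integral inverse is a unit of the Gauss ring. -/
theorem unit_gaussL {x : LaurentSeries K} (a b : LaurentSeries R) (hx : x = cR R K a)
    (hab : a * b = 1) : x ∈ gaussL R K ∧ x⁻¹ ∈ gaussL R K := by
  have h1 : cR R K a * cR R K b = 1 := by rw [← map_mul, hab, map_one]
  refine ⟨hx ▸ cR_mem_gaussL a, ?_⟩
  rw [hx, ← eq_inv_of_mul_eq_one_right h1]
  exact cR_mem_gaussL b

theorem unit_gaussLoc {x : LaurentSeries K'} (a b : LaurentSeries R') (hx : x = cR R' K' a)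
    (hab : a * b = 1) : x ∈ gaussLoc R' K' ∧ x⁻¹ ∈ gaussLoc R' K' := by
  have h1 : cR R' K' a * cR R' K' b = 1 := by rw [← map_mul, hab, map_one]
  refine ⟨hx ▸ cR_mem_gaussLoc a, ?_⟩
  rw [hx, ← eq_inv_of_mul_eq_one_right h1]
  exact cR_mem_gaussLoc b

namespace GHyp

variable {r : ℕ} {D : WtOne r} {T : Three R' K' F T1} {J G1 G2 : F}

theorem epsA (h : GHyp D T J G1 G2) (A : Type*) [CommRing A] :
    ((D.chi q : ℤ) : LaurentSeries A) * ((D.chi q : ℤ) : LaurentSeries A) = 1 := by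
  rw [← Int.cast_mul, h.eps, Int.cast_one]

theorem G1_ne (h : GHyp D T J G1 G2) : G1 ≠ 0 := by
  intro h0
  have h1 := h.jF1
  rw [h0, map_zero] at h1
  have h2 := D.G1_mul_G1i K q
  rw [← h1, zero_mul] at h2
  exact zero_ne_one h2

theorem G2_ne (h : GHyp D T J G1 G2) : G2 ≠ 0 := by
  intro h0
  have h1 := h.jF2
  rw [h0, map_zero] at h1
  have h2 := D.G2_mul_G2i K q
  rw [← h1, zero_mul] at h2
  exact zero_ne_one h2

theorem unitAt_oo {z : F} (a b : LaurentSeries R) (hx : T.jF z = cR R K a) (hab : a * b = 1) :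
    UnitAt T.Voo z := by
  have := unit_gaussL a b hx hab
  exact ⟨T.mem_Voo.2 this.1, T.mem_Voo.2 (by rw [map_inv₀]; exact this.2)⟩

theorem unitAt_0 {z : F} (a b : LaurentSeries R) (hx : T.jF (T.w z) = cR R K a) (hab : a * b = 1) :
    UnitAt T.V0 z := by
  have := unitAt_oo (T := T) a b hx hab
  exact ⟨T.mem_V0.2 this.1, T.mem_V0.2 (by rw [map_inv₀]; exact this.2)⟩

theorem unitAt_mid {z : F} (a b : LaurentSeries R') (hx : T.jm z = cR R' K' a) (hab : a * b = 1) :
    UnitAt T.Vmid z := by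
  have := unit_gaussLoc a b hx hab
  exact ⟨T.mem_Vmid.2 this.1, T.mem_Vmid.2 (by rw [map_inv₀]; exact this.2)⟩

theorem jF_w_q_mul (z : F) :
    T.jF (T.w (rE R K F (q : R) * z)) = (q : LaurentSeries K) * T.jF (T.w z) := by
  rw [map_mul, map_mul, T.w_rE, T.jF_rE, map_natCast]

theorem w1' (h : GHyp D T J G1 G2) : T.jF (T.w (rE R K F (q : R) * G1)) =
    cR R K (((D.chi q : ℤ) : LaurentSeries R) * D.G2i R q) := by
  rw [jF_w_q_mul, map_mul, map_intCast, D.coeffMap_G2i]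
  have h1 := h.w1
  have h2 := D.G2_mul_G2i K q
  calc (q : LaurentSeries K) * T.jF (T.w G1)
      = (T.jF (T.w G1) * ((q : LaurentSeries K) * D.G2 K q)) * D.G2i K q := by
        rw [mul_assoc, mul_assoc, h2]; ring
    _ = _ := by rw [h1]

theorem w2' (h : GHyp D T J G1 G2) : T.jF (T.w (rE R K F (q : R) * G2)) =
    cR R K (((D.chi q : ℤ) : LaurentSeries R) * D.G1i R q) := by
  rw [jF_w_q_mul, map_mul, map_intCast, D.coeffMap_G1i]
  have h1 := h.w2
  have h2 := D.G1_mul_G1i K q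
  calc (q : LaurentSeries K) * T.jF (T.w G2)
      = (T.jF (T.w G2) * ((q : LaurentSeries K) * D.G1 K q)) * D.G1i K q := by
        rw [mul_assoc, mul_assoc, h2]; ring
    _ = _ := by rw [h1]

theorem m2' (h : GHyp D T J G1 G2) : T.jm (rE R K F (q : R) * G2) =
    cR R' K' (((D.chi q : ℤ) : LaurentSeries R') * (S28.twist T.ζ (D.thS R') * Vz R' q (D.thInv R'))) := by
  rw [map_mul, T.basic_jm_q, map_mul, map_mul, map_intCast, S28.coeffMap_twist, coeffMap_Vz,
    D.coeffMap_thS, D.coeffMap_thInv]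
  have h1 := h.m2
  have h2 : Vz K' q (D.thS K') * Vz K' q (D.thInv K') = 1 := by
    rw [← map_mul, D.thS_mul_thInv, map_one]
  calc (q : LaurentSeries K') * T.jm G2
      = (T.jm G2 * ((q : LaurentSeries K') * Vz K' q (D.thS K'))) * Vz K' q (D.thInv K') := by
        rw [mul_assoc, mul_assoc, h2]; ring
    _ = _ := by rw [h1]; ring

theorem gTable (h : GHyp D T J G1 G2) : GTable (K := K) (q : R) T.Vf J G1 G2 where
  G1_ne := h.G1_ne
  G2_ne := h.G2_ne
  G1_int := S34.exists_pow_mul_mem_CInt T.hunr h.int1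
  G1_int' := S34.exists_pow_mul_mem_CInt T.hunr h.int1'
  G2_int := S34.exists_pow_mul_mem_CInt T.hunr h.int2
  G2_int' := S34.exists_pow_mul_mem_CInt T.hunr h.int2'
  G1_oo := unitAt_oo (D.G1 R q) (D.G1i R q) (by rw [h.jF1, D.coeffMap_G1]) (D.G1_mul_G1i R q)
  G1_mid := unitAt_mid (D.G1 R' q) (D.G1i R' q) (by rw [h.m1, D.coeffMap_G1]) (D.G1_mul_G1i R' q)
  G1_0 := unitAt_0 _ (((D.chi q : ℤ) : LaurentSeries R) * D.G2 R q) h.w1' (by
    have h1 := h.epsA R
    have h2 := D.G2_mul_G2i R q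
    calc _ = (((D.chi q : ℤ) : LaurentSeries R) * ((D.chi q : ℤ) : LaurentSeries R)) *
          (D.G2 R q * D.G2i R q) := by ring
      _ = 1 := by rw [h1, h2, one_mul])
  G2_oo := unitAt_oo (D.G2 R q) (D.G2i R q) (by rw [h.jF2, D.coeffMap_G2]) (D.G2_mul_G2i R q)
  G2_mid := unitAt_mid _
    (((D.chi q : ℤ) : LaurentSeries R') * (S28.twist T.ζ (D.thInv R') * Vz R' q (D.thS R'))) h.m2' (by
    have h1 := h.epsA R'
    have h2 : Vz R' q (D.thS R') * Vz R' q (D.thInv R') = 1 := by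
      rw [← map_mul, D.thS_mul_thInv, map_one]
    have h3 : S28.twist T.ζ (D.thS R') * S28.twist T.ζ (D.thInv R') = 1 := by
      rw [← map_mul, D.thS_mul_thInv, map_one]
    calc _ = (((D.chi q : ℤ) : LaurentSeries R') * ((D.chi q : ℤ) : LaurentSeries R')) *
          ((Vz R' q (D.thS R') * Vz R' q (D.thInv R')) *
            (S28.twist T.ζ (D.thS R') * S28.twist T.ζ (D.thInv R'))) := by ring
      _ = 1 := by rw [h1, h2, h3, one_mul, one_mul])
  G2_0 := unitAt_0 _ (((D.chi q : ℤ) : LaurentSeries R) * D.G1 R q) h.w2' (by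
    have h1 := h.epsA R
    have h2 := D.G1_mul_G1i R q
    calc _ = (((D.chi q : ℤ) : LaurentSeries R) * ((D.chi q : ℤ) : LaurentSeries R)) *
          (D.G1 R q * D.G1i R q) := by ring
      _ = 1 := by rw [h1, h2, one_mul])

theorem eps_cases (h : GHyp D T J G1 G2) : D.chi q = 1 ∨ D.chi q = -1 := by
  have h1 := h.eps
  have h2 : (D.chi q - 1) * (D.chi q + 1) = 0 := by linear_combination h1
  rcases mul_eq_zero.1 h2 with h3 | h3
  · left; linarith
  · right; linarith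

theorem tri_oo (h : GHyp D T J G1 G2) : G1 * G2⁻¹ - G1⁻¹ ^ (q - 1) ∈ T.Voo.nonunits := by
  have : Fact q.Prime := ⟨T1.hq⟩
  have := Frob.charP_residue T1.hq T1.hqR
  have e1 : (D.G1 K q)⁻¹ = D.G1i K q := (eq_inv_of_mul_eq_one_right (D.G1_mul_G1i K q)).symm
  have e2 : (D.G2 K q)⁻¹ = D.G2i K q := (eq_inv_of_mul_eq_one_right (D.G2_mul_G2i K q)).symm
  have e3 : T.jF (G1 * G2⁻¹ - G1⁻¹ ^ (q - 1)) =
      cR R K (D.G1 R q * D.G2i R q - D.G1i R q ^ (q - 1)) := by
    rw [map_sub, map_mul, map_pow, map_inv₀, map_inv₀, h.jF1, h.jF2, e1, e2, map_sub, map_mul,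
      map_pow, D.coeffMap_G1, D.coeffMap_G2i, D.coeffMap_G1i]
  rw [T.mem_Voo_nonunits, e3, cR_mem_nonunits_iff, ← Gauss.redR_eq_zero_iff, Gauss.redR, map_sub,
    map_mul, map_pow, D.coeffMap_G1, D.coeffMap_G2i, D.coeffMap_G1i, D.tri_char q, sub_self]

theorem twist_residue (x : LaurentSeries R') :
    coeffMap (IsLocalRing.residue R') (S28.twist T.ζ x) = coeffMap (IsLocalRing.residue R') x := by
  have h1 : ¬ IsUnit (1 - (T.ζ : R')) := not_isUnit_lam T1.hq T.ζ T.hζ T.basic_not_isUnit_q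
  have h2 : IsLocalRing.residue R' (T.ζ : R') = 1 := by
    have := (IsLocalRing.residue_eq_zero_iff _).2 ((IsLocalRing.mem_maximalIdeal _).2 h1)
    rw [map_sub, map_one, sub_eq_zero] at this
    exact this.symm
  have h3 : Units.map (IsLocalRing.residue R' : R' →* IsLocalRing.ResidueField R') T.ζ = 1 :=
    Units.ext h2
  rw [S28.coeffMap_twist, h3]
  ext n
  simp

theorem tri_mid (h : GHyp D T J G1 G2) :
    rE R K F (q : R) * G2 - ((D.chi q : ℤ) : F) * G1⁻¹ ∈ T.Vmid.nonunits := by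
  have e1 : (D.G1 K' q)⁻¹ = D.G1i K' q := (eq_inv_of_mul_eq_one_right (D.G1_mul_G1i K' q)).symm
  have e3 : T.jm (rE R K F (q : R) * G2 - ((D.chi q : ℤ) : F) * G1⁻¹) =
      cR R' K' (((D.chi q : ℤ) : LaurentSeries R') *
        (S28.twist T.ζ (D.thS R') * Vz R' q (D.thInv R')) -
          ((D.chi q : ℤ) : LaurentSeries R') * D.G1i R' q) := by
    rw [map_sub, h.m2', map_mul (T.jm), map_intCast, map_inv₀, h.m1, e1, map_sub, map_mul (cR R' K') _ (D.G1i R' q),
      map_intCast, D.coeffMap_G1i]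
  rw [T.mem_Vmid_nonunits, e3, cR_mem_nonunits_gaussLoc_iff, ← Gauss.redR_eq_zero_iff, Gauss.redR,
    map_sub, map_mul, map_mul, map_mul, twist_residue, WtOne.G1i, WtOne.Gi, map_mul, sub_self]

theorem triCong (h : GHyp D T J G1 G2) : TriCong (K := K) (q : R) q T.Vf G1 G2 where
  oo := h.tri_oo
  mid := ⟨((D.chi q : ℤ) : F), by
    rcases h.eps_cases with h1 | h1
    · left; rw [h1]; simp
    · right; rw [h1]; simp, h.tri_mid⟩

end GHyp

end Fermat.Agent.S36.Inst
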