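import Fermat.Agent.S36.Inst.GAbs
import Fermat.Agent.S36.C0.ThreeB

set_option autoImplicit false
set_option linter.unusedSectionVars false

/-!
# S36 / Inst / GData : `GTable` and `TriCong` for the CONCRETE three-level context (`C0.IsConc3`)

`D : ModA.WtOne r` (`wt9` or `wt4`), `r ∣ M`, `q ∤ M`;  `G1`, `G2 : FK K (M * q * q)` with series `D.G1 K q`, `D.G2 K q`; `J` with series `j`.

Outputs: `gHyp_conc`, `exists_gdata`.
-/

noncomputable section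

namespace Fermat.Agent.S36.Inst

open ModularCurve Polynomial IntermediateField Fermat.Agent.S18 Fermat.Agent.S34.V2
open Fermat.Agent.S24 (Kb FN)
open Fermat.Agent.S34 Fermat.Agent.S36.LG Fermat.Agent.S36.V3 Fermat.Agent.S36.ModA Fermat.Agent.Mod
open Fermat.Agent.S36.C0

section Level

variable {r : ℕ} (D : WtOne r) (hr : 0 < r) {K : Type} [Field K] [CharZero K] {q M : ℕ}
  (hq : q.Prime) (hM : 0 < M) (hrM : r ∣ M) (hqM : ¬ q ∣ M)

include hr hq hM hrM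

theorem G1_mem' {N : ℕ} [NeZero N] (hN : N = q ^ 2 * M) : D.G1 K q ∈ Mod.FK K N := by
  subst hN
  exact D.G1_mem hr K hq hM hrM

theorem G2_mem' {N : ℕ} [NeZero N] (hN : N = q ^ 2 * M) : D.G2 K q ∈ Mod.FK K N := by
  subst hN
  exact D.G2_mem hr K hq hM hrM

include hqM

/-- `W_G12` at a level `N = q ^ 2 * M` written in any way. -/
theorem W_G12' {N : ℕ} [NeZero N] (hN : N = q ^ 2 * M) (φ : Mod.FK K N →+* LaurentSeries K)
    (hφ : ∀ d (hd : d ∣ N), φ (jF K N d hd) = jS K (alPerm (q ^ 2) d))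
    (h1 : D.G1 K q ∈ Mod.FK K N) (h2 : D.G2 K q ∈ Mod.FK K N) :
    φ ⟨D.G1 K q, h1⟩ * ((q : LaurentSeries K) * D.G2 K q) = ((D.chi q : ℤ) : LaurentSeries K) ∧
      φ ⟨D.G2 K q, h2⟩ * ((q : LaurentSeries K) * D.G1 K q) = ((D.chi q : ℤ) : LaurentSeries K) := by
  subst hN
  exact D.W_G12 hr hq hM hrM hqM φ hφ

/-- `Mid_G12` at a level `N = q ^ 2 * M` written in any way. -/
theorem Mid_G12' {N : ℕ} [NeZero N] (hN : N = q ^ 2 * M) (ζ : Kˣ) (hζ : IsPrimitiveRoot ζ q)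
    (φ : Mod.FK K N →+* LaurentSeries K)
    (hφ1 : ∀ d (hd : d ∣ N), d ∣ q * M → φ (jF K N d hd) = jS K d)
    (hφ2 : ∀ d (hd : q ^ 2 * d ∣ N), φ (jF K N (q ^ 2 * d) hd) = S28.twist ζ (jS K d))
    (h1 : D.G1 K q ∈ Mod.FK K N) (h2 : D.G2 K q ∈ Mod.FK K N) :
    φ ⟨D.G1 K q, h1⟩ = D.G1 K q ∧
      φ ⟨D.G2 K q, h2⟩ * ((q : LaurentSeries K) * Vz K q (D.thS K)) =
        ((D.chi q : ℤ) : LaurentSeries K) * S28.twist ζ (D.thS K) := by
  subst hN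
  exact D.Mid_G12 hr hq hM hrM hqM ζ hζ φ hφ1 hφ2

end Level

section Mid

variable {M q : ℕ} [NeZero M] [NeZero q]

theorem toFN_id_jF (N : ℕ) [NeZero N] (d : ℕ) (hd : d ∣ N) :
    toFN (RingHom.id Kb) N (jF Kb N d hd) = S36.Mod.jdF N hd := by
  apply Subtype.ext
  rw [toFN_coe, S36.Mod.coe_jdF]
  show coeffMap (RingHom.id Kb) (jS Kb d) = _
  rw [coeffMap_jS]
  rfl

theorem isMid_old {ζ : Kbˣ} {φ : FN (M * q * q) →+* LaurentSeries Kb} (hφ : S36.Mod.IsMid M q ζ φ)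
    (d : ℕ) (hd : d ∣ M * q * q) (hd' : d ∣ q * M) :
    φ (toFN (RingHom.id Kb) (M * q * q) (jF Kb (M * q * q) d hd)) = jS Kb d := by
  have hd2 : d ∣ M * q := by rwa [mul_comm]
  rw [toFN_id_jF]
  have h1 : S36.Mod.jdF (M * q * q) hd = heckeAlphaBar Kb (M * q) q (S36.Mod.jdF (M * q) hd2) := by
    rw [S36.Mod.alpha_jdF]
  rw [h1, hφ.alpha, S36.Mod.coe_jdF]
  rfl

theorem isMid_new {ζ : Kbˣ} {φ : FN (M * q * q) →+* LaurentSeries Kb} (hφ : S36.Mod.IsMid M q ζ φ)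
    (d : ℕ) (hd : q ^ 2 * d ∣ M * q * q) :
    φ (toFN (RingHom.id Kb) (M * q * q) (jF Kb (M * q * q) (q ^ 2 * d) hd)) =
      S28.twist ζ (jS Kb d) := by
  have hq0 : 0 < q := Nat.pos_of_ne_zero (NeZero.ne q)
  have hdM : d ∣ M := by
    have h1 : q ^ 2 * d ∣ q ^ 2 * M := by
      have : M * q * q = q ^ 2 * M := by ring
      rwa [this] at hd
    exact Nat.dvd_of_mul_dvd_mul_left (pow_pos hq0 2) h1
  have hd1 : q * d ∣ M * q := by rw [mul_comm M q]; exact Nat.mul_dvd_mul_left q hdM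
  have hd2 : q * (q * d) ∣ M * q * q := by
    rw [mul_comm (M * q) q]; exact Nat.mul_dvd_mul_left q hd1
  rw [toFN_id_jF]
  have h1 : S36.Mod.jdF (M * q * q) hd =
      heckeBetaBar Kb (M * q) q (heckeBetaBar Kb M q (S36.Mod.jdF M hdM)) := by
    rw [S36.Mod.beta_jdF M q hdM hd1, S36.Mod.beta_jdF (M * q) q hd1 hd2]
    apply Subtype.ext
    rw [S36.Mod.coe_jdF, S36.Mod.coe_jdF]
    congr 1
    ring
  rw [h1, hφ.beta, S36.Mod.coe_jdF]
  rfl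

end Mid

section Conc

variable {r : ℕ} (D : WtOne r) {K : Type} [Field K] [CharZero K] (ι : K →+* Kb)
  {A : ValuationSubring Kb} [IsDiscreteValuationRing ↥(A.comap ι)] {M q : ℕ} [NeZero M] [NeZero q]
  (ζ : Kbˣ) {E : Type} [Field E] [Algebra K E] [Algebra E ↥(Mod.FK K (M * q))]
  [Algebra ↥(Mod.FK K (M * q)) ↥(Mod.FK K (M * q * q))] [Algebra E ↥(Mod.FK K (M * q * q))]
  [IsScalarTower K E ↥(Mod.FK K (M * q))] [IsScalarTower K ↥(Mod.FK K (M * q)) ↥(Mod.FK K (M * q * q))]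
  [IsScalarTower E ↥(Mod.FK K (M * q)) ↥(Mod.FK K (M * q * q))]
  [IsScalarTower K E ↥(Mod.FK K (M * q * q))]
  {T1 : Two ↥(A.comap ι) K q E ↥(Mod.FK K (M * q))}
  {T : Three ↥A Kb ↥(Mod.FK K (M * q * q)) T1}

/-- the expansions of `G1`, `G2` in the concrete three-level context. -/
theorem gHyp_conc (hT : IsConc3 ι ζ T) (hζ : IsPrimitiveRoot ζ q) (hr : 0 < r) (hq : q.Prime)
    (hrM : r ∣ M) (hqM : ¬ q ∣ M) {J G1 G2 : ↥(Mod.FK K (M * q * q))} (hJ : J.1 = jqModC K)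
    (hG1 : G1.1 = D.G1 K q) (hG2 : G2.1 = D.G2 K q) : GHyp D T J G1 G2 := by
  have hM : 0 < M := Nat.pos_of_ne_zero (NeZero.ne M)
  have hN : M * q * q = q ^ 2 * M := by ring
  have hm1 : D.G1 K q ∈ Mod.FK K (M * q * q) := hG1 ▸ G1.2
  have hm2 : D.G2 K q ∈ Mod.FK K (M * q * q) := hG2 ▸ G2.2
  have e1 : G1 = ⟨D.G1 K q, hm1⟩ := Subtype.ext hG1
  have e2 : G2 = ⟨D.G2 K q, hm2⟩ := Subtype.ext hG2
  have hQ : q * q ∣ M * q * q := ⟨M, by ring⟩
  have hc : Nat.Coprime (q * q) (M * q * q / (q * q)) := by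
    have h1 : M * q * q / (q * q) = M := by
      rw [mul_assoc]; exact Nat.mul_div_cancel _ (Nat.mul_pos hq.pos hq.pos)
    rw [h1]
    have := (Nat.Prime.coprime_iff_not_dvd hq).2 hqM
    exact Nat.Coprime.mul_left this this
  have hW := W_G12' D hr hq hM hrM hqM hN
    ((Mod.FK K (M * q * q)).val.toRingHom.comp (Mod.wQ K (M * q * q) (q * q)).toRingEquiv.toRingHom)
    (fun d hd => by
      have := Mod.wQ_jF K (M * q * q) (q * q) hQ hc d hd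
      rw [pow_two]
      exact this) hm1 hm2
  obtain ⟨φ, hφ, hjm⟩ := hT.jm_eq
  have hb1 : D.G1 Kb q ∈ Mod.FK Kb (M * q * q) := G1_mem' D hr hq hM hrM hN
  have hb2 : D.G2 Kb q ∈ Mod.FK Kb (M * q * q) := G2_mem' D hr hq hM hrM hN
  have hMid := Mid_G12' D hr hq hM hrM hqM hN ζ hζ (φ.comp (toFN (RingHom.id Kb) (M * q * q)))
    (fun d hd hd' => isMid_old hφ d hd hd') (fun d hd => isMid_new hφ d hd) hb1 hb2
  have t1 : toFN ι (M * q * q) G1 = toFN (RingHom.id Kb) (M * q * q) ⟨D.G1 Kb q, hb1⟩ := by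
    apply Subtype.ext
    rw [toFN_coe, toFN_coe, hG1, D.coeffMap_G1, D.coeffMap_G1]
  have t2 : toFN ι (M * q * q) G2 = toFN (RingHom.id Kb) (M * q * q) ⟨D.G2 Kb q, hb2⟩ := by
    apply Subtype.ext
    rw [toFN_coe, toFN_coe, hG2, D.coeffMap_G2, D.coeffMap_G2]
  have hζ' : Units.map (algebraMap ↥A Kb : ↥A →* Kb) T.ζ = ζ := Units.ext hT.ζ_eq
  have hint : ∀ (G : ↥(Mod.FK K (M * q * q))), IntOver K (jqModC K) G.1 →
      IsIntegral (Algebra.adjoin K {J}) G := by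
    intro G hG
    rw [← Mod.intOver_iff_isIntegral, ← Mod.intOver_coe_iff]
    rw [← hJ] at hG
    exact hG
  have hinv1 : (G1⁻¹ : ↥(Mod.FK K (M * q * q))).1 = D.G1i K q := by
    have h := D.G1_mul_G1i K q
    show (G1.1)⁻¹ = _
    rw [hG1]
    exact (eq_inv_of_mul_eq_one_right h).symm
  have hinv2 : (G2⁻¹ : ↥(Mod.FK K (M * q * q))).1 = D.G2i K q := by
    have h := D.G2_mul_G2i K q
    show (G2.1)⁻¹ = _
    rw [hG2]
    exact (eq_inv_of_mul_eq_one_right h).symm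
  refine
    { eps := D.chi_q_sq hr hq hrM hqM
      jF1 := by rw [hT.jF_eq, hG1]
      jF2 := by rw [hT.jF_eq, hG2]
      w1 := by rw [hT.jF_eq, hT.w_eq, e1]; exact hW.1
      w2 := by rw [hT.jF_eq, hT.w_eq, e2]; exact hW.2
      m1 := by rw [hjm, t1]; exact hMid.1
      m2 := by rw [hjm, t2, hζ']; exact hMid.2
      int1 := hint G1 (hG1 ▸ D.intOver_G1 K hq)
      int1' := hint _ (hinv1 ▸ D.intOver_G1i K hq)
      int2 := hint G2 (hG2 ▸ D.intOver_G2 K hq)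
      int2' := hint _ (hinv2 ▸ D.intOver_G2i K hq) }

/-- **the `G`-part of `ChartData`** for the concrete three-level context. -/
theorem exists_gdata (hT : IsConc3 ι ζ T) (hζ : IsPrimitiveRoot ζ q) (hr : 0 < r) (hq : q.Prime)
    (hrM : r ∣ M) (hqM : ¬ q ∣ M) {J : ↥(Mod.FK K (M * q * q))} (hJ : J.1 = jqModC K) :
    ∃ G1 G2 : ↥(Mod.FK K (M * q * q)), G1.1 = D.G1 K q ∧ G2.1 = D.G2 K q ∧
      GTable (K := K) (q : ↥(A.comap ι)) T.Vf J G1 G2 ∧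
      TriCong (K := K) (q : ↥(A.comap ι)) q T.Vf G1 G2 := by
  have hM : 0 < M := Nat.pos_of_ne_zero (NeZero.ne M)
  have hN : M * q * q = q ^ 2 * M := by ring
  have h := gHyp_conc D ι ζ hT hζ hr hq hrM hqM hJ
    (G1 := ⟨D.G1 K q, G1_mem' D hr hq hM hrM hN⟩) (G2 := ⟨D.G2 K q, G2_mem' D hr hq hM hrM hN⟩) rfl rfl
  exact ⟨_, _, rfl, rfl, h.gTable, h.triCong⟩

end Conc

end Fermat.Agent.S36.Inst
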