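import Fermat.Agent.S36.LG.Sat
import Fermat.Agent.S34.SS.IntCl

set_option autoImplicit false
set_option linter.unusedSectionVars false

/-!
# S36 / Inst / GTable : the weight one units `G1`, `G2` give local generators at the non-cuspidal points   (task I-GTable; LOCGEN (b) of board #411)

Three branches `V 0 = V_∞`, `V 1 = V_mid`, `V 2 = V_0`.  Valuation table (`v(ϖ) = 1`): `G1 = (0, 0, -1)`, `G2 = (0, -1, -1)`.
`G_i^{±1}` are integral over `K[J]`.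

SKETCH.  `LG.prinC_of_genUnit hϖ hV hg k₀ hg1 hg2 hg3`.
 * `GenUnit ϖ n (ϖ G2)`: `InLoc n J` + `InLoc.of_mem_CInt` give `InLoc n (ϖ^k G2)`, `InLoc n (ϖ^k' G2⁻¹)`; take the exponent `max k k' + 1`.
 * `k₀ = 0`, `g = ϖ G2`: `g ∈ 𝔪` (`hV.mem 0`, `G2 ∈ V 0`); `g⁻¹ z = G2⁻¹ (ϖ⁻¹ z)` (`unif_oo`); units at `V 1`, `V 2` by the table (`Fin` cases: `fin_cases k`).
 * `k₀ = 2`, `g = G1⁻¹ = ϖ (ϖ G1)⁻¹`;  `g⁻¹ z = (ϖ G1) (ϖ⁻¹ z)`.
-/

noncomputable section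

namespace Fermat.Agent.S36.Inst

open Polynomial IntermediateField Fermat.Agent.S18 Fermat.Agent.S34 Fermat.Agent.S36.LG

variable {R K F : Type} [CommRing R] [IsDomain R] [IsDiscreteValuationRing R] [Field K] [CharZero K]
  [Algebra R K] [IsFractionRing R K] [Field F] [Algebra K F] {ϖ : R}

/-- `z` is a unit of `V`. -/
def UnitAt (V : ValuationSubring F) (z : F) : Prop := z ∈ V ∧ z⁻¹ ∈ V

/-- the valuation table of `G1`, `G2` and their integrality over `K[J]`. -/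
structure GTable (ϖ : R) (V : Fin 3 → ValuationSubring F) (J G1 G2 : F) : Prop where
  G1_ne : G1 ≠ 0
  G2_ne : G2 ≠ 0
  G1_int : ∃ k : ℕ, rE R K F ϖ ^ k * G1 ∈ CInt R K J
  G1_int' : ∃ k : ℕ, rE R K F ϖ ^ k * G1⁻¹ ∈ CInt R K J
  G2_int : ∃ k : ℕ, rE R K F ϖ ^ k * G2 ∈ CInt R K J
  G2_int' : ∃ k : ℕ, rE R K F ϖ ^ k * G2⁻¹ ∈ CInt R K J
  G1_oo : UnitAt (V 0) G1
  G1_mid : UnitAt (V 1) G1
  G1_0 : UnitAt (V 2) (rE R K F ϖ * G1)
  G2_oo : UnitAt (V 0) G2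
  G2_mid : UnitAt (V 1) (rE R K F ϖ * G2)
  G2_0 : UnitAt (V 2) (rE R K F ϖ * G2)

variable {t : F} {V : Fin 3 → ValuationSubring F} {J G1 G2 : F}

/-- weak integrality over `K[J]` of `z^{±1}` gives `GenUnit` at the points where `J` is regular. -/
theorem gtable_genUnit {n : Ideal (CInt R K t)} [n.IsPrime] (hJ : InLoc n J) {z : F} (hz : z ≠ 0)
    (h1 : ∃ k : ℕ, rE R K F ϖ ^ k * z ∈ CInt R K J)
    (h2 : ∃ k : ℕ, rE R K F ϖ ^ k * z⁻¹ ∈ CInt R K J) : GenUnit ϖ n z := by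
  obtain ⟨k, hk⟩ := h1
  obtain ⟨k', hk'⟩ := h2
  refine ⟨hz, k + k', ?_, ?_⟩
  · have e : rE R K F ϖ ^ (k + k') * z = rE R K F ϖ ^ k' * (rE R K F ϖ ^ k * z) := by
      rw [pow_add]; ring
    rw [e]
    exact ((InLoc.rE ϖ).pow k').mul (InLoc.of_mem_CInt hJ hk)
  · have e : rE R K F ϖ ^ (k + k') * z⁻¹ = rE R K F ϖ ^ k * (rE R K F ϖ ^ k' * z⁻¹) := by
      rw [pow_add]; ring
    rw [e]
    exact ((InLoc.rE ϖ).pow k).mul (InLoc.of_mem_CInt hJ hk')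

theorem gtable_genUnit_inv {n : Ideal (CInt R K t)} {z : F} (h : GenUnit ϖ n z) :
    GenUnit ϖ n z⁻¹ := by
  obtain ⟨h0, k, h1, h2⟩ := h
  exact ⟨inv_ne_zero h0, k, h2, by rwa [inv_inv]⟩

theorem gtable_genUnit_unif_mul (hϖ : Irreducible ϖ) {n : Ideal (CInt R K t)} [n.IsPrime] {z : F}
    (h : GenUnit ϖ n z) : GenUnit ϖ n (rE R K F ϖ * z) := by
  have hϖ0 := rE_unif_ne_zero (K := K) (F := F) hϖ
  obtain ⟨h0, k, h1, h2⟩ := h
  refine ⟨mul_ne_zero hϖ0 h0, k + 1, ?_, ?_⟩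
  · have e : rE R K F ϖ ^ (k + 1) * (rE R K F ϖ * z) =
        (rE R K F ϖ * rE R K F ϖ) * (rE R K F ϖ ^ k * z) := by
      rw [pow_succ]; ring
    rw [e]
    exact ((InLoc.rE ϖ).mul (InLoc.rE ϖ)).mul h1
  · have e : rE R K F ϖ ^ (k + 1) * (rE R K F ϖ * z)⁻¹ = rE R K F ϖ ^ k * z⁻¹ := by
      rw [pow_succ, mul_inv]
      field_simp
    rw [e]
    exact h2

/-- `𝔭_∞ = (ϖ G2)` at the non-cuspidal points. -/
theorem GTable.prinC_oo (hϖ : Irreducible ϖ) (hV : VertFam (K := K) ϖ t V)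
    (h : GTable (K := K) ϖ V J G1 G2)
    (hu : ∀ z ∈ (V 0).nonunits, (rE R K F ϖ)⁻¹ * z ∈ V 0) {n : Ideal (CInt R K t)} [n.IsPrime]
    (hJ : InLoc n J) : PrinC n (V 0) (rE R K F ϖ * G2) := by
  have hϖ0 := rE_unif_ne_zero (K := K) (F := F) hϖ
  have hg : GenUnit ϖ n (rE R K F ϖ * G2) :=
    gtable_genUnit_unif_mul hϖ (gtable_genUnit hJ h.G2_ne h.G2_int h.G2_int')
  refine prinC_of_genUnit hϖ hV hg 0 ?_ ?_ ?_
  · exact mul_mem_nonunits' _ (hV.mem 0) h.G2_oo.1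
  · intro z hz
    have e : (rE R K F ϖ * G2)⁻¹ * z = G2⁻¹ * ((rE R K F ϖ)⁻¹ * z) := by
      rw [mul_inv]; ring
    rw [e]
    exact mul_mem h.G2_oo.2 (hu z hz)
  · intro k hk _
    fin_cases k
    · exact absurd rfl hk
    · exact h.G2_mid
    · exact h.G2_0

/-- `𝔭_0 = (1 / G1)` at the non-cuspidal points. -/
theorem GTable.prinC_0 (hϖ : Irreducible ϖ) (hV : VertFam (K := K) ϖ t V)
    (h : GTable (K := K) ϖ V J G1 G2)
    (hu : ∀ z ∈ (V 2).nonunits, (rE R K F ϖ)⁻¹ * z ∈ V 2) {n : Ideal (CInt R K t)} [n.IsPrime]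
    (hJ : InLoc n J) : PrinC n (V 2) G1⁻¹ := by
  have hϖ0 := rE_unif_ne_zero (K := K) (F := F) hϖ
  have hG1 := h.G1_ne
  have hg : GenUnit ϖ n G1⁻¹ :=
    gtable_genUnit_inv (gtable_genUnit hJ h.G1_ne h.G1_int h.G1_int')
  refine prinC_of_genUnit hϖ hV hg 2 ?_ ?_ ?_
  · have e : G1⁻¹ = rE R K F ϖ * (rE R K F ϖ * G1)⁻¹ := by
      rw [mul_inv]; field_simp
    rw [e]
    exact mul_mem_nonunits' _ (hV.mem 2) h.G1_0.2
  · intro z hz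
    have e : G1⁻¹⁻¹ * z = (rE R K F ϖ * G1) * ((rE R K F ϖ)⁻¹ * z) := by
      rw [inv_inv]; field_simp
    rw [e]
    exact mul_mem h.G1_0.1 (hu z hz)
  · intro k hk _
    fin_cases k
    · exact ⟨h.G1_oo.2, by rw [inv_inv]; exact h.G1_oo.1⟩
    · exact ⟨h.G1_mid.2, by rw [inv_inv]; exact h.G1_mid.1⟩
    · exact absurd rfl hk

end Fermat.Agent.S36.Inst
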