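import Fermat.Agent.S36.Inst.Side0
import Fermat.Agent.S36.Inst.CuspSep
import Fermat.Agent.S36.Inst.GTable

set_option autoImplicit false
set_option linter.unusedSectionVars false

/-!
# S36 / Inst / LocGen : every closed point of the special fibre is `Reg2`   (LOCGEN, board #411 (2); assembled)

Abstract: `E` = level `M`, `F` = level `q²M`; `V 0 = V_∞`, `V 1 = V_mid`, `V 2 = V_0`; `t₀ : E` the chart parameter (`x` or `x⁻¹`), `t : F` its image;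
`ι₀ : E → F` the inclusion, `ι₂ = w ∘ ι₀ = V_{q²}`.

`MidGen ϖ q V n` : the conclusion of helper23's `MidOrd` / `MidCusp`.
-/

noncomputable section

namespace Fermat.Agent.S36.Inst

open Polynomial IntermediateField Fermat.Agent.S18 Fermat.Agent.S34 Fermat.Agent.S36.LG

variable {R K E F : Type} [CommRing R] [IsDomain R] [IsDiscreteValuationRing R] [Field K] [CharZero K]
  [Algebra R K] [IsFractionRing R K] [Field E] [Algebra K E] [Field F] [Algebra K F] {ϖ : R}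

/-- there is `Y ∈ O_n ∩ 𝔪_mid` with `Y^(q-1) / ϖ` a unit of `O_n`. -/
def MidGen (ϖ : R) (q : ℕ) (V : Fin 3 → ValuationSubring F) {t : F} (n : Ideal (CInt R K t)) : Prop :=
  ∃ Y : F, InLoc n Y ∧ Y ∈ (V 1).nonunits ∧ LocUnit n ((rE R K F ϖ)⁻¹ * Y ^ (q - 1))

/-- the geometric data of one chart of the model of level `q²M`. -/
structure ChartData (ϖ : R) (q : ℕ) (t₀ : E) (VE : ValuationSubring E) (t : F)
    (V : Fin 3 → ValuationSubring F) (ι₀ ι₂ : E →ₐ[K] F) (J Jq Jqq g₁ g₂ G1 G2 : F) : Prop where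
  hq : 2 ≤ q
  chart : Chart1 K ϖ t₀ VE
  vert : VertFam (K := K) ϖ t V
  side_oo : Side0 R t₀ VE t (V 0) ι₀
  side_mid : Side0 R t₀ VE t (V 1) ι₀
  side_0 : Side0 R t₀ VE t (V 2) ι₂
  unif_oo : ∀ z ∈ (V 0).nonunits, (rE R K F ϖ)⁻¹ * z ∈ V 0
  unif_0 : ∀ z ∈ (V 2).nonunits, (rE R K F ϖ)⁻¹ * z ∈ V 2
  ram_mid : ∀ z ∈ (V 1).nonunits, (rE R K F ϖ)⁻¹ * z ^ (q - 1) ∈ V 1
  J_eq : ∃ (B : R[X]) (r : ℕ), 1 ≤ r ∧ IsUnit (B.coeff 0) ∧ J * t ^ r = evR R K t B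
  sep : CuspSep (K := K) ϖ q V J Jq Jqq g₁ g₂
  tab : GTable (K := K) ϖ V J G1 G2
  /-- LOCGEN (d) (helper23's `MidOrd`). -/
  mid_ord : ∀ n : Ideal (CInt R K t), IsClosedPt ϖ n → InLoc n J →
    (∀ k, Centered (V k) n → k = 1) → MidGen ϖ q V n
  /-- LOCGEN (e) (helper23's `MidCusp`). -/
  mid_cusp : ∀ n : Ideal (CInt R K t), IsClosedPt ϖ n → InMax n J⁻¹ →
    (∀ k, Centered (V k) n → k = 1) → MidGen ϖ q V n

variable {q : ℕ} {t₀ : E} {VE : ValuationSubring E} {t : F} {V : Fin 3 → ValuationSubring F}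
  {ι₀ ι₂ : E →ₐ[K] F} {J Jq Jqq g₁ g₂ G1 G2 : F}

/-- a closed point is cuspidal or not. -/
theorem cusp_or {n : Ideal (CInt R K t)} [n.IsPrime]
    (hJ : ∃ (B : R[X]) (r : ℕ), 1 ≤ r ∧ IsUnit (B.coeff 0) ∧ J * t ^ r = evR R K t B) :
    InLoc n J ∨ InMax n J⁻¹ := by
  obtain ⟨B, r, hr, hB, e⟩ := hJ
  have htC : t ∈ CInt R K t := by simpa [evR_X] using evR_mem_CInt (R := R) (K := K) t X
  by_cases ht : InMax n t
  · exact Or.inr (inMax_inv_of_J_eq hr hB e ht)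
  · exact Or.inl (inLoc_of_J_eq e (LocUnit.of_not_inMax (InLoc.of_mem n htC) ht))

theorem MidGen.prinC (hϖ : Irreducible ϖ) (hq : 2 ≤ q) (hV : VertFam (K := K) ϖ t V)
    (hram : ∀ z ∈ (V 1).nonunits, (rE R K F ϖ)⁻¹ * z ^ (q - 1) ∈ V 1)
    {n : Ideal (CInt R K t)} [n.IsPrime] (hc : Centered (V 1) n)
    (honly : ∀ k, Centered (V k) n → k = 1) (h : MidGen ϖ q V n) : ∃ Y, PrinC n (V 1) Y := by
  obtain ⟨Y, h1, h2, h3⟩ := h
  exact ⟨Y, prinC_of_pow hϖ hV 1 hc honly (by omega) hram h1 h2 h3⟩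

/-- **LOCGEN**. -/
theorem ChartData.reg2 (hϖ : Irreducible ϖ)
    (D : ChartData ϖ q t₀ VE t V ι₀ ι₂ J Jq Jqq g₁ g₂ G1 G2) {n : Ideal (CInt R K t)}
    (hn : IsClosedPt ϖ n) : Reg2 n := by
  have hp := hn.max.isPrime
  have key : ∀ k, Centered (V k) n → (∃ G, PrinC n (V k) G) → Reg2 n := by
    intro k hk ⟨G, hG⟩
    fin_cases k
    · exact D.side_oo.reg2 hϖ D.chart (D.vert.mem 0) hn.mem hk hG
    · exact D.side_mid.reg2 hϖ D.chart (D.vert.mem 1) hn.mem hk hG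
    · exact D.side_0.reg2 hϖ D.chart (D.vert.mem 2) hn.mem hk hG
  obtain ⟨k₀, hk₀⟩ := D.vert.exists_centered hϖ hn
  rcases cusp_or (n := n) D.J_eq with hJ | hJ
  · by_cases h0 : Centered (V 0) n
    · exact key 0 h0 ⟨_, D.tab.prinC_oo hϖ D.vert D.unif_oo hJ⟩
    by_cases h2 : Centered (V 2) n
    · exact key 2 h2 ⟨_, D.tab.prinC_0 hϖ D.vert D.unif_0 hJ⟩
    have honly : ∀ k, Centered (V k) n → k = 1 := by
      intro k hk
      fin_cases k
      · exact absurd hk h0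
      · rfl
      · exact absurd hk h2
    have h1 : Centered (V 1) n := honly k₀ hk₀ ▸ hk₀
    exact key 1 h1 ((D.mid_ord n hn hJ honly).prinC hϖ D.hq D.vert D.ram_mid h1 honly)
  · have honly : ∀ k, Centered (V k) n → k = k₀ := fun k hk =>
      D.sep.unique hϖ (by have := D.hq; omega) D.vert hn hJ hk hk₀
    refine key k₀ hk₀ ?_
    fin_cases k₀
    · exact ⟨_, prinC_unif hϖ D.vert 0 honly D.unif_oo⟩
    · exact (D.mid_cusp n hn hJ honly).prinC hϖ D.hq D.vert D.ram_mid hk₀ honly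
    · exact ⟨_, prinC_unif hϖ D.vert 2 honly D.unif_0⟩

end Fermat.Agent.S36.Inst
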