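import Fermat.Agent.S36.Inst.FromThree

set_option autoImplicit false
set_option linter.unusedSectionVars false

/-!
# S36 / Inst / Maps : identities between the degeneracy maps; the middle congruence   (task I-Maps)

`a = algebraMap E F1`, `a' = T1.i2 = w₁ ∘ a = V_q`, `α = algebraMap F1 F`, `β = T.β = V_q`, `ι₀ = α ∘ a`, `ι₂ = w ∘ ι₀ = β ∘ a'`, `ι₁ = β ∘ a = α ∘ a'`.

SKETCHES.
* `β_a`: `T.jF` is injective (ring hom of fields); `T.jF (β (a z)) = qExpand q (T1.jF (a z)) = qExpand q (T1.jE z)` (`T.jF_β`, `T1.compat`); `T.jF (α (i2 z)) = T1.jF (w₁ (a z)) = qExpand q (T1.jE z)` (`T.compat`, `T1.w_E`).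
* `ι₂_eq`: `w (α (a z)) = β (w₁ (a z))` (`T.w_α`, `IsScalarTower.algebraMap_apply E F1 F`).
* `mid_cong`: `T.mem_Vmid_nonunits`; `jm (β (w₁ z)) = twist ζ' (coeffMap ρ f)`, `f = T1.jF z` (`T.jm_β`, `T1.w_w`), `jm (α z) = coeffMap ρ f` (`T.jm_α`).  `f ∈ gaussL`, `InQF R f` (`T1.inQF`):
  `f * cR b = cR a`, `b` with a unit coefficient (`InQF.exists_frac`).  With `A = coeffMap ρR a`, `B = coeffMap ρR b` (`coeffMap_cR_bc`, `GaussLoc.twist_cR_bc`):
  `(twist (ρ f) - ρ f) * cR' (B * twist ζ B) = cR' (twist ζ A * B - A * twist ζ B)`, and `twist ζ A * B - A * twist ζ B = (twist ζ A - A) * B - A * (twist ζ B - B) = C (1 - ζ) * (..)` (`Cyclo.geom_unit` / `exists_geom`, `mulCoeff`),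
  so its image lies in `𝔪` (`C (1-ζ)`: `cR_mem_nonunits_gaussLoc_iff`, `not_isUnit_lam` with `T.hloc`, `T1.hqR`; times an element of `gaussLoc`), while `cR' B`, `cR' (twist ζ B)` have valuation one (`GaussLoc.val_eq_one`).
* `Ya_mem`: `mid_cong` for `z = a y` (`T1.map_mem_Vi`), `ι₂_eq`, sign (`neg_mem_nonunits` / `ValuationSubring.mem_nonunits_iff` + `Valuation.map_sub_swap`).
-/

noncomputable section

namespace Fermat.Agent.S36.V3

open ModularCurve Polynomial IntermediateField Fermat.Agent.S18 Fermat.Agent.S18.V Fermat.Agent.S34.V2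
open Fermat.Agent.S34 Fermat.Agent.S36.LG Fermat.Agent.S36.Inst

namespace Three

variable {R K : Type} [CommRing R] [IsDomain R] [IsDiscreteValuationRing R] [Field K] [CharZero K]
  [Algebra R K] [IsFractionRing R K] {R' K' : Type} [CommRing R'] [IsDomain R'] [IsLocalRing R']
  [Field K'] [Algebra R' K'] [IsFractionRing R' K'] {q : ℕ} [NeZero q] {E F1 F : Type}
  [Field E] [Field F1] [Field F] [Algebra K E] [Algebra K F1] [Algebra K F] [Algebra E F1]
  [Algebra F1 F] [Algebra E F] [IsScalarTower K E F1] [IsScalarTower K F1 F] [IsScalarTower E F1 F]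
  [IsScalarTower K E F] {T1 : Two R K q E F1} (T : Three R' K' F T1)

theorem β_a (z : E) : T.β (algebraMap E F1 z) = algebraMap F1 F (T1.i2 z) := by
  apply (T.jF : F →+* LaurentSeries K).injective
  change T.jF (T.β (algebraMap E F1 z)) = T.jF (algebraMap F1 F (T1.i2 z))
  rw [T.jF_β, T1.compat, T.compat, T1.i2_apply, T1.w_E]

theorem ι₂_eq (z : E) : T.ι₂ z = T.β (T1.i2 z) := by
  rw [T.ι₂_apply, IsScalarTower.algebraMap_apply E F1 F, T.w_α, T1.i2_apply]

/-- `x(Q) - x(ζ Q)` is divisible by `1 - ζ`. -/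
theorem maps_sub_twist (x : LaurentSeries R') :
    ∃ u : LaurentSeries R', x - S28.twist T.ζ x = HahnSeries.C (1 - (T.ζ : R')) * u := by
  choose c hc using Cyclo.geom_unit T1.hq.pos T.ζ T.hζ.pow_eq_one
  refine ⟨Cyclo.mulCoeff c x, ?_⟩
  ext n
  rw [HahnSeries.C_mul_eq_smul, HahnSeries.coeff_smul, HahnSeries.coeff_sub, S28.twist_coeff,
    Cyclo.mulCoeff_coeff, smul_eq_mul, ← mul_assoc, ← hc n]
  ring

/-- **the middle congruence**: `β ∘ w₁ ≡ α` on `Vmid`. -/
theorem mid_cong {z : F1} (hz : z ∈ T1.Vi) :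
    T.β (T1.w z) - algebraMap F1 F z ∈ T.Vmid.nonunits := by
  rw [T.mem_Vmid_nonunits, map_sub, T.jm_β, T1.w_w, T.jm_α]
  obtain ⟨a, b, hb, e⟩ := (T1.inQF z).exists_frac (T1.mem_Vi.1 hz)
  set f := T1.jF z with hf
  set A := coeffMap T.ρR a with hA
  set B := coeffMap T.ρR b with hB
  set tw := S28.twist (Units.map (algebraMap R' K' : R' →* K') T.ζ) with htw
  have e1 : coeffMap T.ρ f * cR R' K' B = cR R' K' A := by
    rw [hA, hB, ← coeffMap_cR_bc T.ρ T.ρR T.hρ, ← coeffMap_cR_bc T.ρ T.ρR T.hρ, ← map_mul, e]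
  have etw : ∀ y : LaurentSeries R', tw (cR R' K' y) = cR R' K' (S28.twist T.ζ y) := fun y =>
    (S28.coeffMap_twist _ _ _).symm
  have e2 : tw (coeffMap T.ρ f) * cR R' K' (S28.twist T.ζ B) = cR R' K' (S28.twist T.ζ A) := by
    rw [← etw, ← etw, ← map_mul, e1]
  have hB1 : ∃ n, IsUnit (B.coeff n) := by
    obtain ⟨n, hn⟩ := hb
    exact ⟨n, by rw [hB, coeffMap_coeff]; exact hn.map T.ρR⟩
  have hB2 : ∃ n, IsUnit ((S28.twist T.ζ B).coeff n) := by
    obtain ⟨n, hn⟩ := hB1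
    exact ⟨n, by rw [S28.twist_coeff]; exact (Units.isUnit _).mul hn⟩
  obtain ⟨uA, huA⟩ := T.maps_sub_twist A
  obtain ⟨uB, huB⟩ := T.maps_sub_twist B
  have e3 : S28.twist T.ζ A * B - A * S28.twist T.ζ B =
      HahnSeries.C (1 - (T.ζ : R')) * (A * uB - uA * B) := by
    have : S28.twist T.ζ A * B - A * S28.twist T.ζ B =
        A * (B - S28.twist T.ζ B) - (A - S28.twist T.ζ A) * B := by ring
    rw [this, huA, huB]; ring
  have e4 : (tw (coeffMap T.ρ f) - coeffMap T.ρ f) * (cR R' K' B * cR R' K' (S28.twist T.ζ B)) =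
      cR R' K' (S28.twist T.ζ A * B - A * S28.twist T.ζ B) := by
    rw [map_sub, map_mul, map_mul, ← e1, ← e2]; ring
  have h5 : cR R' K' (S28.twist T.ζ A * B - A * S28.twist T.ζ B) ∈
      (gaussLoc R' K').nonunits := by
    rw [cR_mem_nonunits_gaussLoc_iff, e3]
    intro n hn
    rw [HahnSeries.C_mul_eq_smul, HahnSeries.coeff_smul, smul_eq_mul] at hn
    exact not_isUnit_lam T1.hq T.ζ T.hζ T.basic_not_isUnit_q (isUnit_of_mul_isUnit_left hn)
  rw [ValuationSubring.mem_nonunits_iff] at h5 ⊢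
  rw [← e4, map_mul, map_mul, GaussLoc.val_eq_one hB1, GaussLoc.val_eq_one hB2, mul_one,
    mul_one] at h5
  exact h5

theorem Ya_mem {y : E} (hy : y ∈ T1.VE) : T.ι₀ y - T.ι₂ y ∈ T.Vmid.nonunits := by
  have h := neg_mem_nonunits _ (T.mid_cong (T1.map_mem_Vi.2 hy))
  rw [neg_sub, ← T1.i2_apply, ← T.ι₂_eq, ← IsScalarTower.algebraMap_apply E F1 F] at h
  exact h

end Three

end Fermat.Agent.S36.V3
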