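import Fermat.Agent.S36.Inst.ConcJ
import Fermat.Agent.S36.Inst.GData
import Fermat.Agent.S36.Inst.Feed
import Fermat.Agent.S36.Inst.FeedIn
import Fermat.Agent.S36.ModA.Inst
import Fermat.Agent.S36.Mid.Ids

set_option autoImplicit false
set_option linter.unusedSectionVars false
set_option linter.unusedVariables false

/-!
# S36 / Inst / Need : the concrete inputs of `exists_geo36` (glue)

Setting: `R = A.comap ι` (DVR, `q` a uniformiser), `F1 = FK K (M q)`, `F = FK K (M q q)`, `T1 : Two R K q E F1` with `IsConc M q T1`,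
`T : Three ↥A ℚ̄ F T1` with `IsConc3 ι ζ T`, `jj : E` with `T1.jE jj = jqModC K` (so `(algebraMap E F jj).1 = jqModC K`: `need_coe_J`).

* `need_gdata` (PROVED from helper11's `Inst/GData.lean : exists_gdata`): the weight one units `G1`, `G2`: valuation table + the two congruences;
* `mid_ord`      : LOCGEN (d), from helper23's `Mid/Main.lean`;
* `mid_cusp`     : LOCGEN (e), from helper23's `Mid/Main.lean` + `Inst/Feed.lean`.

Everything else of `Core.exists_geo36` is assembled in `Inst/Conc.lean` from these three statements.  If you need a further hypothesis which is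
available in `Inst/Conc.lean` (e.g. `JData`, `ChartData`-type facts, strong M8) add it to the statement and tell helper27.
-/

noncomputable section

namespace Fermat.Agent.S36.Inst

open ModularCurve Polynomial IntermediateField AlgebraicCurve Fermat.Agent.S18 Fermat.Agent.S18.V
open Fermat.Agent.S24 (Kb FN)
open Fermat.Agent.S34 Fermat.Agent.S34.V2 Fermat.Agent.S36.V3 Fermat.Agent.S36.C0 Fermat.Agent.S36.LG
open Fermat.Agent.S36.Descent (IsInertiaField)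

variable {M q : ℕ} [NeZero M] [NeZero q] {A : ValuationSubring Kb} {K : Type} [Field K] [CharZero K]
  {ι : K →+* Kb} [IsDiscreteValuationRing ↥(A.comap ι)] {E : Type} [Field E] [Algebra K E]
  [Algebra E ↥(FK K (M * q))] [IsScalarTower K E ↥(FK K (M * q))]
  [Algebra ↥(FK K (M * q)) ↥(FK K (M * q * q))]
  [IsScalarTower K ↥(FK K (M * q)) ↥(FK K (M * q * q))]
  [Algebra E ↥(FK K (M * q * q))] [IsScalarTower E ↥(FK K (M * q)) ↥(FK K (M * q * q))]
  [IsScalarTower K E ↥(FK K (M * q * q))]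
  {T1 : Two ↥(A.comap ι) K q E ↥(FK K (M * q))} {T : Three ↥A Kb ↥(FK K (M * q * q)) T1} {ζ : Kbˣ}

/-- the `Q`-expansion of the image of `y : E` at level `M q²`. -/
theorem need_coe_map (hT1 : IsConc M q T1) (hT : IsConc3 ι ζ T) (y : E) :
    (algebraMap E ↥(FK K (M * q * q)) y).1 = T1.jE y := by
  rw [IsScalarTower.algebraMap_apply E ↥(FK K (M * q)) ↥(FK K (M * q * q)), hT.alg_eq, hT1.coe_map]

theorem need_coe_J (hT1 : IsConc M q T1) (hT : IsConc3 ι ζ T) {jj : E} (hj : T1.jE jj = jqModC K) :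
    (algebraMap E ↥(FK K (M * q * q)) jj).1 = jqModC K := by
  rw [need_coe_map hT1 hT, hj]

/-! ### I-GData -/

theorem need_gdata (hq : q.Prime) (hqM : ¬ q ∣ M) (hr : Core.auxR q ∣ M)
    (hζ : IsPrimitiveRoot ζ q) (hT : IsConc3 ι ζ T)
    {J : ↥(FK K (M * q * q))} (hJ : J.1 = jqModC K) :
    ∃ G1 G2 : ↥(FK K (M * q * q)),
      GTable (K := K) (q : ↥(A.comap ι)) T.Vf J G1 G2 ∧
        TriCong (K := K) (q : ↥(A.comap ι)) q T.Vf G1 G2 := by
  by_cases h3 : q = 3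
  · have h4 : 4 ∣ M := by
      refine Dvd.dvd.trans ?_ hr
      rw [Core.auxR, if_neg (by omega), if_pos h3]
      norm_num
    obtain ⟨G1, G2, -, -, h1, h2⟩ :=
      exists_gdata ModA.wt4 ι ζ hT hζ (by norm_num) hq h4 hqM hJ
    exact ⟨G1, G2, h1, h2⟩
  · have h9 : 9 ∣ M := by
      refine Dvd.dvd.trans ?_ hr
      rw [Core.auxR]
      split_ifs <;> norm_num
    obtain ⟨G1, G2, -, -, h1, h2⟩ :=
      exists_gdata ModA.wt9 ι ζ hT hζ (by norm_num) hq h9 hqM hJ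
    exact ⟨G1, G2, h1, h2⟩

/-! ### I-MidOrd -/

theorem mid_ord (hqM : ¬ q ∣ M) (hr : Core.auxR q ∣ M) (hA : A.LiesOverPrime q)
    (hι : IsInertiaField A ι) (hT1 : IsConc M q T1) (hζ : IsPrimitiveRoot ζ q) (hT : IsConc3 ι ζ T)
    (h1 : Chart1 K (q : ↥(A.comap ι)) T1.x T1.VE) (h1' : Chart1 K (q : ↥(A.comap ι)) T1.x⁻¹ T1.VE)
    {jj : E} (hj : T1.jE jj = jqModC K) {t₀ : E} (ht : t₀ = T1.x ∨ t₀ = T1.x⁻¹)
    (hM8 : T1.i2 t₀ ∈ CInt ↥(A.comap ι) K (algebraMap E ↥(FK K (M * q)) t₀))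
    (n : Ideal (CInt ↥(A.comap ι) K (algebraMap E ↥(FK K (M * q * q)) t₀)))
    (hn : IsClosedPt (q : ↥(A.comap ι)) n) (hJ : InLoc n (algebraMap E ↥(FK K (M * q * q)) jj))
    (honly : ∀ k, Centered (T.Vf k) n → k = 1) : MidGen (q : ↥(A.comap ι)) q T.Vf n := by
  obtain ⟨x3E, x2E, d₁, I⟩ := exists_midIn T1.hq hr hT1 hj
  exact Mid.mid_ord T (Mid.thetaIds _) I (T.vertFam_t ht h1) n hn hJ honly

/-! ### I-MidCusp -/

theorem mid_cusp (hqM : ¬ q ∣ M) (hr : Core.auxR q ∣ M) (hA : A.LiesOverPrime q)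
    (hι : IsInertiaField A ι) (hT1 : IsConc M q T1) (hζ : IsPrimitiveRoot ζ q) (hT : IsConc3 ι ζ T)
    (h1 : Chart1 K (q : ↥(A.comap ι)) T1.x T1.VE) (h1' : Chart1 K (q : ↥(A.comap ι)) T1.x⁻¹ T1.VE)
    {jj : E} (hj : T1.jE jj = jqModC K) {t₀ : E} (ht : t₀ = T1.x ∨ t₀ = T1.x⁻¹)
    (hM8 : T1.i2 t₀ ∈ CInt ↥(A.comap ι) K (algebraMap E ↥(FK K (M * q)) t₀))
    (n : Ideal (CInt ↥(A.comap ι) K (algebraMap E ↥(FK K (M * q * q)) t₀)))
    (hn : IsClosedPt (q : ↥(A.comap ι)) n) (hJ : InMax n (algebraMap E ↥(FK K (M * q * q)) jj)⁻¹)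
    (honly : ∀ k, Centered (T.Vf k) n → k = 1) : MidGen (q : ↥(A.comap ι)) q T.Vf n := by
  have hp := hn.max.isPrime
  obtain ⟨x3E, x2E, d₁, I⟩ := exists_midIn T1.hq hr hT1 hj
  have hj0 : jj ≠ 0 := (hT1.jdHyp hqM hj (s := RingEquiv.refl E) rfl).j_ne
  have hx0 : T1.x ≠ 0 := inst_x_ne_zero T1
  have ht0 : t₀ ≠ 0 := by
    rcases ht with rfl | rfl
    · exact hx0
    · exact inv_ne_zero hx0
  have ht' : t₀⁻¹ = T1.x ∨ t₀⁻¹ = T1.x⁻¹ := by
    rcases ht with rfl | rfl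
    · exact Or.inr rfl
    · exact Or.inl (inv_inv _)
  have hM8' := conc_hM8 T.hunr hT1 h1 h1' ht'
  have hS := T.cuspSep_of_jData hj0 (conc_jData hqM T.hunr hT1 hj ht)
  have hJqq := T.feed_Jqq ht0 hM8' hj0 (conc_hrel hT1 hj ht) hJ
  have hρ := T.feed_rho (T.vertFam_t ht h1) hS hn hJ hJqq honly
  exact Mid.mid_cusp T (Mid.thetaIds _) ι I (T.vertFam_t ht h1) n hn hJ honly hρ.2.1

end Fermat.Agent.S36.Inst
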