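import Fermat.Agent.S36.LG.Ring
import Fermat.Agent.S34.SS.Basic
import Fermat.Agent.S34.SS.IntCl

set_option autoImplicit false
set_option linter.unusedSectionVars false

/-!
# S36 / Inst / Pole : poles go to poles   (task I-Pole)

`a` integral over `R[b]`; `n` a prime of a chart `C = CInt R K t`.  If `a⁻¹ ∈ 𝔪_n` then `b⁻¹ ∈ 𝔪_n`.

SKETCH.  `u := a⁻¹`, `v := b⁻¹` (`a ≠ 0` since `InMax n a⁻¹` and ... if `a = 0` then `a⁻¹ = 0`: allowed! so assume `ha : a ≠ 0`; `b ≠ 0` is a hypothesis too).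
`a ∈ CInt R K b`: monic `P : R[X][X]` of degree `d` with `P.eval₂ (evR R K b) a = 0`, i.e. `a^d + ∑_{i<d} c_i(b) a^i = 0`, `c_i ∈ R[X]`.  (`d ≥ 1` because `1 ≠ 0`.)
Let `D ≥ 1` be a bound for `natDegree c_i`, and `c_i^*(v) := v^D c_i(1/v) = evR R K v (reflect D c_i)` (`Polynomial.reflect`, `Polynomial.eval₂_reflect_mul_pow` / `reverse`; or avoid `reflect`: `v^D * evR b c = ∑_k rE (c.coeff k) v^(D-k)`).
Multiply by `u^d v^D`:    `v^D + ∑_{i<d} u^(d-i) c_i^*(v) = 0`.     (∗)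
Each `c_i^*(v) = rE (c_i.coeff 0) v^D + (polynomial of degree < D in v with coefficients in R)`, so (∗) reads `(1 + u e) v^D + ∑_{k<D} u e_k v^k = 0` with `e, e_k ∈ O_n` (polynomials in `u` over `R`).
`1 + u e` is a `LocUnit` (`LocUnit.one_add`, `InMax.mul_right`), so `v` is integral over `Oloc n` (monic polynomial `X^D + ∑ (1+ue)⁻¹ u e_k X^k`), hence `InLoc n v` (`LG.inLoc_of_isIntegral`).
Then `v^D = - (1+ue)⁻¹ u ∑ e_k v^k` is `InMax`; if `v` were not `InMax` it would be a `LocUnit` (`LocUnit.of_not_inMax`) and so would be `v^D`: contradiction with `LG.not_locUnit_of_inMax`.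
-/

noncomputable section

namespace Fermat.Agent.S36.Inst

open Polynomial IntermediateField Fermat.Agent.S18 Fermat.Agent.S34 Fermat.Agent.S36.LG

variable {R K F : Type} [CommRing R] [IsDomain R] [IsDiscreteValuationRing R] [Field K] [CharZero K]
  [Algebra R K] [IsFractionRing R K] [Field F] [Algebra K F]

theorem pole_inMax_zero {t : F} (n : Ideal (CInt R K t)) [n.IsPrime] : InMax n (0 : F) :=
  ⟨1, loc_one_notMem n, 0, n.zero_mem, by simp⟩

theorem pole_inMax_sum {t : F} {n : Ideal (CInt R K t)} [n.IsPrime] {ι : Type} (s : Finset ι)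
    (f : ι → F) (h : ∀ i ∈ s, InMax n (f i)) : InMax n (∑ i ∈ s, f i) := by
  classical
  induction s using Finset.induction_on with
  | empty => simpa using pole_inMax_zero n
  | insert a s ha ih =>
    rw [Finset.sum_insert ha]
    exact (h a (Finset.mem_insert_self a s)).add (ih fun i hi => h i (Finset.mem_insert_of_mem hi))

theorem pole_inMax_pow {t : F} {n : Ideal (CInt R K t)} [n.IsPrime] {z : F} (hz : InMax n z) {r : ℕ}
    (hr : 1 ≤ r) : InMax n (z ^ r) := by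
  obtain ⟨r, rfl⟩ : ∃ r', r = r' + 1 := ⟨r - 1, by omega⟩
  rw [pow_succ]
  exact InMax.mul_left (hz.inLoc.pow r) hz

theorem pole_locUnit_pow {t : F} {n : Ideal (CInt R K t)} [n.IsPrime] {z : F} (hz : LocUnit n z)
    (r : ℕ) : LocUnit n (z ^ r) :=
  ⟨pow_ne_zero r hz.1, hz.2.1.pow r, by rw [← inv_pow]; exact hz.2.2.pow r⟩

/-- a root of `(1 + μ₀) X^D + μ₁ X^(D-1) + ⋯ + μ_D`, `μ_k ∈ 𝔪_n`, lies in `𝔪_n`. -/
theorem pole_key {t : F} {n : Ideal (CInt R K t)} [n.IsPrime] {v : F} {D : ℕ} (hD : 1 ≤ D)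
    (μ : ℕ → F) (hμ : ∀ k, InMax n (μ k))
    (h : v ^ D + ∑ k ∈ Finset.range (D + 1), μ k * v ^ (D - k) = 0) : InMax n v := by
  have hε : LocUnit n (1 + μ 0) := LocUnit.one_add (hμ 0)
  have hν : ∀ k, InMax n ((1 + μ 0)⁻¹ * μ (k + 1)) := fun k => InMax.mul_left hε.2.2 (hμ _)
  have h2 : v ^ D + ∑ k ∈ Finset.range D, ((1 + μ 0)⁻¹ * μ (k + 1)) * v ^ (D - (k + 1)) = 0 := by
    rw [Finset.sum_range_succ', Nat.sub_zero] at h
    have e : v ^ D + ∑ k ∈ Finset.range D, ((1 + μ 0)⁻¹ * μ (k + 1)) * v ^ (D - (k + 1)) =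
        (1 + μ 0)⁻¹ * (v ^ D + (∑ k ∈ Finset.range D, μ (k + 1) * v ^ (D - (k + 1)) + μ 0 * v ^ D)) := by
      have e1 : ∑ k ∈ Finset.range D, ((1 + μ 0)⁻¹ * μ (k + 1)) * v ^ (D - (k + 1)) =
          (1 + μ 0)⁻¹ * ∑ k ∈ Finset.range D, μ (k + 1) * v ^ (D - (k + 1)) := by
        rw [Finset.mul_sum]
        exact Finset.sum_congr rfl fun k _ => by ring
      rw [e1]
      have h0 := hε.1
      field_simp
      ring
    rw [e, h, mul_zero]
  have hv : InLoc n v := by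
    apply inLoc_of_isIntegral n
    refine ⟨X ^ D + ∑ k ∈ Finset.range D,
      C (⟨_, mem_Oloc.2 (hν k).inLoc⟩ : Oloc n) * X ^ (D - (k + 1)), ?_, ?_⟩
    · apply Polynomial.monic_X_pow_add
      refine (Polynomial.degree_sum_le _ _).trans_lt ?_
      refine (Finset.sup_lt_iff (WithBot.bot_lt_coe D)).2 ?_
      intro k _
      refine (Polynomial.degree_C_mul_X_pow_le _ _).trans_lt ?_
      exact WithBot.coe_lt_coe.2 (by omega : D - (k + 1) < D)
    · rw [eval₂_add, eval₂_pow, eval₂_X, eval₂_finsetSum]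
      simp only [eval₂_mul, eval₂_C, eval₂_pow, eval₂_X]
      exact h2
  have hvD : InMax n (v ^ D) := by
    have e : v ^ D = -∑ k ∈ Finset.range D, ((1 + μ 0)⁻¹ * μ (k + 1)) * v ^ (D - (k + 1)) :=
      eq_neg_of_add_eq_zero_left h2
    rw [e]
    exact (pole_inMax_sum _ _ fun k _ => (hν k).mul_right (hv.pow _)).neg
  by_contra hcon
  exact not_locUnit_of_inMax n hvD (pole_locUnit_pow (LocUnit.of_not_inMax hv hcon) D)

theorem pole_reflect {b : F} (hb : b ≠ 0) {D : ℕ} {c : R[X]} (hc : c.natDegree < D + 1) :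
    b⁻¹ ^ D * evR R K b c = ∑ k ∈ Finset.range (D + 1), rE R K F (c.coeff k) * b⁻¹ ^ (D - k) := by
  have e : evR R K b c = ∑ k ∈ Finset.range (D + 1), rE R K F (c.coeff k) * b ^ k :=
    Polynomial.eval₂_eq_sum_range' (rE R K F) hc b
  rw [e, Finset.mul_sum]
  refine Finset.sum_congr rfl fun k hk => ?_
  have hk' : k ≤ D := Nat.lt_succ_iff.1 (Finset.mem_range.1 hk)
  have e1 : b⁻¹ ^ D = b⁻¹ ^ (D - k) * b⁻¹ ^ k := by rw [← pow_add, Nat.sub_add_cancel hk']
  have e2 : b⁻¹ ^ k * b ^ k = 1 := by rw [← mul_pow, inv_mul_cancel₀ hb, one_pow]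
  calc b⁻¹ ^ D * (rE R K F (c.coeff k) * b ^ k)
      = rE R K F (c.coeff k) * b⁻¹ ^ (D - k) * (b⁻¹ ^ k * b ^ k) := by rw [e1]; ring
    _ = _ := by rw [e2, mul_one]

/-- poles go to poles. -/
theorem inMax_inv_of_mem_CInt {t : F} {n : Ideal (CInt R K t)} [n.IsPrime] {a b : F} (ha : a ≠ 0)
    (hb : b ≠ 0) (hab : a ∈ CInt R K b) (h : InMax n a⁻¹) : InMax n b⁻¹ := by
  obtain ⟨P, hP, hPa⟩ := hab
  rw [Polynomial.eval₂_eq_sum_range, Finset.sum_range_succ, hP.coeff_natDegree, map_one,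
    one_mul] at hPa
  set d := P.natDegree with hd
  set D := (Finset.range d).sup (fun i => (P.coeff i).natDegree) + 1 with hDdef
  have hdeg : ∀ i ∈ Finset.range d, (P.coeff i).natDegree < D + 1 := by
    intro i hi
    have := Finset.le_sup (f := fun i => (P.coeff i).natDegree) hi
    omega
  refine pole_key (D := D) (by omega)
    (fun k => ∑ i ∈ Finset.range d, a⁻¹ ^ (d - i) * rE R K F ((P.coeff i).coeff k)) ?_ ?_
  · intro k
    refine pole_inMax_sum _ _ fun i hi => ?_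
    have hi' : i < d := Finset.mem_range.1 hi
    exact (pole_inMax_pow h (by omega)).mul_right (InLoc.rE _)
  · have e0 : a⁻¹ ^ d * b⁻¹ ^ D *
        (∑ i ∈ Finset.range d, evR R K b (P.coeff i) * a ^ i + a ^ d) = 0 := by
      rw [hPa, mul_zero]
    rw [← e0, mul_add, add_comm (b⁻¹ ^ D)]
    congr 1
    swap
    · have e2 : a⁻¹ ^ d * a ^ d = 1 := by rw [← mul_pow, inv_mul_cancel₀ ha, one_pow]
      calc b⁻¹ ^ D = (a⁻¹ ^ d * a ^ d) * b⁻¹ ^ D := by rw [e2, one_mul]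
        _ = _ := by ring
    · simp only [Finset.sum_mul]
      rw [Finset.sum_comm, Finset.mul_sum]
      refine Finset.sum_congr rfl fun i hi => ?_
      have hi' : i ≤ d := (Finset.mem_range.1 hi).le
      have e1 : a⁻¹ ^ d = a⁻¹ ^ (d - i) * a⁻¹ ^ i := by rw [← pow_add, Nat.sub_add_cancel hi']
      have e2 : a⁻¹ ^ i * a ^ i = 1 := by rw [← mul_pow, inv_mul_cancel₀ ha, one_pow]
      have e3 : a⁻¹ ^ d * b⁻¹ ^ D * (evR R K b (P.coeff i) * a ^ i) =
          a⁻¹ ^ (d - i) * (b⁻¹ ^ D * evR R K b (P.coeff i)) := by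
        calc a⁻¹ ^ d * b⁻¹ ^ D * (evR R K b (P.coeff i) * a ^ i)
            = a⁻¹ ^ (d - i) * (b⁻¹ ^ D * evR R K b (P.coeff i)) * (a⁻¹ ^ i * a ^ i) := by
              rw [e1]; ring
          _ = _ := by rw [e2, mul_one]
      rw [e3, pole_reflect hb (hdeg i hi), Finset.mul_sum]
      exact Finset.sum_congr rfl fun k _ => by ring

theorem pole_locUnit_rE {t : F} (n : Ideal (CInt R K t)) [n.IsPrime] {r : R} (hr : IsUnit r) :
    LocUnit n (rE R K F r) := by
  obtain ⟨u, rfl⟩ := hr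
  have h1 : rE R K F (u : R) * rE R K F ((u⁻¹ : Rˣ) : R) = 1 := by
    rw [← map_mul, Units.mul_inv, map_one]
  refine ⟨left_ne_zero_of_mul_eq_one h1, InLoc.rE _, ?_⟩
  rw [← eq_inv_of_mul_eq_one_right h1]
  exact InLoc.rE _

/-- `J t^r = B(t)`, `B(0)` a unit: if `t ∈ 𝔪_n` then `J⁻¹ ∈ 𝔪_n`.
(`B(t) = B(0) + t * (..)` is a `LocUnit` (`Polynomial.divX_mul_X_add`, `LocUnit.one_add`), `J⁻¹ = t^r * B(t)⁻¹`.) -/
theorem inMax_inv_of_J_eq {t : F} {n : Ideal (CInt R K t)} [n.IsPrime] {s J : F} {B : R[X]} {r : ℕ}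
    (hr : 1 ≤ r) (hB : IsUnit (B.coeff 0)) (hJ : J * s ^ r = evR R K s B) (hs : InMax n s) :
    InMax n J⁻¹ := by
  have hin : ∀ p : R[X], InLoc n (evR R K s p) := fun p =>
    InLoc.of_mem_CInt hs.inLoc (evR_mem_CInt s p)
  have hE : LocUnit n (evR R K s B) := by
    refine LocUnit.of_not_inMax (hin B) fun hcon => ?_
    have e : rE R K F (B.coeff 0) = evR R K s B - evR R K s B.divX * s := by
      conv_rhs => rw [← Polynomial.divX_mul_X_add B]
      rw [map_add, map_mul, evR_X, evR_C, Polynomial.divX_mul_X_add]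
      ring
    have h1 : InMax n (rE R K F (B.coeff 0)) := by
      rw [e]
      exact hcon.sub (InMax.mul_left (hin _) hs)
    exact not_locUnit_of_inMax n h1 (pole_locUnit_rE n hB)
  have hs0 : s ^ r ≠ 0 := by
    intro h0
    rw [h0, mul_zero] at hJ
    exact hE.1 hJ.symm
  have e : J⁻¹ = (evR R K s B)⁻¹ * s ^ r := by
    rw [← hJ, mul_inv, mul_assoc, inv_mul_cancel₀ hs0, mul_one]
  rw [e]
  exact InMax.mul_left hE.2.2 (pole_inMax_pow hs hr)

/-- `J t^r = B(t)`: if `t` is a unit at `n` then `J ∈ O_n`. -/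
theorem inLoc_of_J_eq {t : F} {n : Ideal (CInt R K t)} [n.IsPrime] {s J : F} {B : R[X]} {r : ℕ}
    (hJ : J * s ^ r = evR R K s B) (hs : LocUnit n s) : InLoc n J := by
  have e : J = evR R K s B * s⁻¹ ^ r := by
    rw [← hJ, mul_assoc, ← mul_pow, mul_inv_cancel₀ hs.1, one_pow, mul_one]
  rw [e]
  exact (InLoc.of_mem_CInt hs.2.1 (evR_mem_CInt s B)).mul (hs.2.2.pow r)

end Fermat.Agent.S36.Inst
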